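import Mathlib

/-!
# Dimension theory for patching (RT1)
-/

set_option autoImplicit false
set_option linter.unusedSectionVars false
set_option linter.unusedVariables false

namespace Fermat.Agent.RT1

open IsLocalRing

theorem ringKrullDim_le_of_integral_injective {S T : Type*} [CommRing S] [CommRing T]
    [IsDomain T] [Algebra S T] [Algebra.IsIntegral S T] (hinj : Function.Injective (algebraMap S T)) :
    ringKrullDim S ≤ ringKrullDim T := by
  have : Algebra.HasGoingUp S T := Algebra.HasGoingUp.of_isIntegral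
  unfold ringKrullDim Order.krullDim
  refine iSup_le fun l => ?_
  have hker : RingHom.ker (algebraMap S T) ≤ (RelSeries.head l).asIdeal := by
    rw [(RingHom.injective_iff_ker_eq_bot _).1 hinj]
    exact bot_le
  obtain ⟨Q, hQ, hQl⟩ := Ideal.exists_ideal_over_prime_of_isIntegral_of_isDomain (S := T)
    (RelSeries.head l).asIdeal hker
  have : Q.LiesOver (RelSeries.head l).asIdeal := ⟨hQl.symm⟩
  obtain ⟨L, hL, -, -⟩ := Ideal.exists_ltSeries_of_hasGoingUp l Q
  rw [← hL]
  exact le_iSup (fun (p : LTSeries (PrimeSpectrum T)) => (p.length : WithBot ℕ∞)) L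

theorem ringKrullDim_le_of_pow_le {R : Type*} [CommRing R] [IsLocalRing R] [IsNoetherianRing R]
    (n : ℕ) (t : Fin n → R) (ht : ∀ i, t i ∈ maximalIdeal R) (k : ℕ)
    (h : maximalIdeal R ^ k ≤ Ideal.span (Set.range t)) : ringKrullDim R ≤ n := by
  rw [← IsLocalRing.maximalIdeal_height_eq_ringKrullDim]
  have hle : Ideal.span (Set.range t) ≤ maximalIdeal R := by
    rw [Ideal.span_le]
    rintro _ ⟨i, rfl⟩
    exact ht i
  have hmin : maximalIdeal R ∈ (Ideal.span (Set.range t)).minimalPrimes := by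
    refine ⟨⟨inferInstance, hle⟩, fun Q ⟨hQ, hQ2⟩ _ => ?_⟩
    exact hQ.le_of_pow_le (h.trans hQ2)
  have h1 := Ideal.height_le_card_of_mem_minimalPrimes_span (Set.finite_range t) hmin
  have h2 : (Set.range t).ncard ≤ n := by
    have := Set.ncard_image_le (f := t) (s := Set.univ) Set.finite_univ
    rw [Set.image_univ, Set.ncard_univ, Nat.card_eq_fintype_card, Fintype.card_fin] at this
    exact this
  have h3 : (maximalIdeal R).height ≤ (n : ℕ∞) := h1.trans (by exact_mod_cast h2)
  exact_mod_cast h3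

theorem ringKrullDim_quotient_le_of_pow_le {R : Type*} [CommRing R] [IsLocalRing R]
    [IsNoetherianRing R] (q : Ideal R) [hq : q.IsPrime]
    (n : ℕ) (t : Fin n → R) (ht : ∀ i, t i ∈ maximalIdeal R) (k : ℕ)
    (h : maximalIdeal R ^ k ≤ q ⊔ Ideal.span (Set.range t)) : ringKrullDim (R ⧸ q) ≤ n := by
  have : Nontrivial (R ⧸ q) := Ideal.Quotient.nontrivial_iff.mpr hq.ne_top
  have := IsLocalRing.of_surjective' (Ideal.Quotient.mk q) Ideal.Quotient.mk_surjective
  have hloc : IsLocalHom (Ideal.Quotient.mk q) :=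
    IsLocalHom.of_surjective _ Ideal.Quotient.mk_surjective
  refine ringKrullDim_le_of_pow_le n (fun i => Ideal.Quotient.mk q (t i)) (fun i => ?_) k ?_
  · rw [mem_maximalIdeal, mem_nonunits_iff]
    intro hu
    exact (mem_maximalIdeal _).1 (ht i) (isUnit_of_map_unit _ _ hu)
  · have hmap : maximalIdeal (R ⧸ q) = (maximalIdeal R).map (Ideal.Quotient.mk q) := by
      apply le_antisymm
      · intro x hx
        obtain ⟨y, rfl⟩ := Ideal.Quotient.mk_surjective x
        refine Ideal.mem_map_of_mem _ ?_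
        rw [mem_maximalIdeal, mem_nonunits_iff] at hx ⊢
        exact fun hu => hx (hu.map _)
      · rw [Ideal.map_le_iff_le_comap]
        intro y hy
        rw [Ideal.mem_comap, mem_maximalIdeal, mem_nonunits_iff]
        intro hu
        exact (mem_maximalIdeal y).1 hy (isUnit_of_map_unit _ y hu)
    rw [hmap, ← Ideal.map_pow]
    refine (Ideal.map_mono h).trans ?_
    rw [Ideal.map_sup, Ideal.map_quotient_self, bot_sup_eq, Ideal.map_span, ← Set.range_comp]
    exact le_rfl

/-- a prime of large dimension containing a prime of small dimension is equal to it. -/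
theorem eq_of_le_of_ringKrullDim {R : Type*} [CommRing R] {q q' : Ideal R} [hq : q.IsPrime]
    [hq' : q'.IsPrime] (h : q ≤ q') (n : ℕ) (h1 : ringKrullDim (R ⧸ q) ≤ n)
    (h2 : (n : WithBot ℕ∞) ≤ ringKrullDim (R ⧸ q')) : q = q' := by
  by_contra hne
  obtain ⟨x, hx1, hx2⟩ : ∃ x ∈ q', x ∉ q := by
    by_contra hcon
    push Not at hcon
    exact hne (le_antisymm h hcon)
  have h3 := ringKrullDim_succ_le_of_surjective (Ideal.Quotient.factor h)
    (Ideal.Quotient.factor_surjective h) (r := Ideal.Quotient.mk q x)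
    (mem_nonZeroDivisors_of_ne_zero fun h0 => hx2 (Ideal.Quotient.eq_zero_iff_mem.1 h0))
    (by rw [Ideal.Quotient.factor_mk]; exact Ideal.Quotient.eq_zero_iff_mem.2 hx1)
  have h4 : ((n : ℕ) : WithBot ℕ∞) + 1 ≤ n := (add_le_add_left h2 1).trans (h3.trans h1)
  have h5 : ((n + 1 : ℕ) : WithBot ℕ∞) ≤ ((n : ℕ) : WithBot ℕ∞) := by
    rw [Nat.cast_add, Nat.cast_one]; exact h4
  have h6 : n + 1 ≤ n := by exact_mod_cast h5
  omega

section Support

variable {R S M : Type*} [CommRing R] [CommRing S] [IsDomain S] [AddCommGroup M]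
  [Module S M] [Module.Finite S M]

/-- The minimal primes over the kernel of a representation on a finite torsion free `S`-module such
that the scalars of `S` come from `R` have dimension at least `dim S`. -/
theorem ringKrullDim_le_of_mem_minimalPrimes
    (htf : ∀ (s : S) (x : M), s • x = 0 → s = 0 ∨ x = 0)
    (f : R →+* Module.End S M) (hS : ∀ s : S, ∃ r, f r = algebraMap S (Module.End S M) s)
    (q : Ideal R) (hq : q ∈ (RingHom.ker f).minimalPrimes) :
    ringKrullDim S ≤ ringKrullDim (R ⧸ q) := by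
  have hqp : q.IsPrime := hq.1.1
  have hle : RingHom.ker f ≤ q := hq.1.2
  -- the ring homomorphism S → f.range
  have hr : ∀ s, algebraMap S (Module.End S M) s ∈ f.range := fun s => by
    obtain ⟨r, hr⟩ := hS s
    exact ⟨r, hr⟩
  let j' : S →+* f.range := (algebraMap S (Module.End S M)).codRestrict f.range hr
  have hle' : RingHom.ker f.rangeRestrict ≤ RingHom.ker (Ideal.Quotient.mk q) := by
    rw [Ideal.mk_ker, RingHom.ker_rangeRestrict]
    exact hle
  let g : f.range →+* R ⧸ q :=
    f.rangeRestrict.liftOfSurjective f.rangeRestrict_surjective ⟨Ideal.Quotient.mk q, hle'⟩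
  have hg : ∀ r, g (f.rangeRestrict r) = Ideal.Quotient.mk q r := fun r =>
    RingHom.liftOfRightInverse_comp_apply _ _ _ _ _
  let j : S →+* R ⧸ q := g.comp j'
  have hj : ∀ s r, f r = algebraMap S (Module.End S M) s → j s = Ideal.Quotient.mk q r := by
    intro s r h
    have : j' s = f.rangeRestrict r := Subtype.ext h.symm
    show g (j' s) = _
    rw [this, hg]
  let : Algebra S (R ⧸ q) := j.toAlgebra
  have halg : algebraMap S (R ⧸ q) = j := rfl
  have hint : Algebra.IsIntegral S (R ⧸ q) := by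
    refine ⟨fun x => ?_⟩
    obtain ⟨r, rfl⟩ := Ideal.Quotient.mk_surjective x
    obtain ⟨p, hp, hpr⟩ := LinearMap.exists_monic_and_aeval_eq_zero S (f r)
    refine ⟨p, hp, ?_⟩
    rw [halg, ← hg r]
    show Polynomial.eval₂ (g.comp j') (g (f.rangeRestrict r)) p = 0
    rw [← Polynomial.hom_eval₂]
    have h1 : Polynomial.eval₂ j' (f.rangeRestrict r) p = 0 := by
      apply Subtype.ext
      have h2 := Polynomial.hom_eval₂ p j' f.range.subtype (f.rangeRestrict r)
      have h3 : f.range.subtype (Polynomial.eval₂ j' (f.rangeRestrict r) p) = 0 := by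
        rw [h2]
        exact hpr
      exact h3
    rw [h1, map_zero]
  have hinj : Function.Injective (algebraMap S (R ⧸ q)) := by
    rw [halg, injective_iff_map_eq_zero]
    intro s hs
    by_contra hs0
    obtain ⟨r, hr⟩ := hS s
    rw [hj s r hr, Ideal.Quotient.eq_zero_iff_mem] at hs
    obtain ⟨y, hy1, hy2⟩ := Ideal.exists_mul_mem_of_mem_minimalPrimes hq hs
    apply hy1
    rw [RingHom.mem_ker]
    ext m
    rw [RingHom.mem_ker, map_mul, hr] at hy2
    have h1 := LinearMap.congr_fun hy2 m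
    rw [Module.End.mul_apply, Module.algebraMap_end_apply, LinearMap.zero_apply] at h1
    rcases htf s _ h1 with h2 | h2
    · exact absurd h2 hs0
    · rw [h2, LinearMap.zero_apply]
  exact ringKrullDim_le_of_integral_injective hinj

/-- Components: a finite family of primes of dimension `≤ n ≤ dim S` such that every prime over
`ker f` contains one of them. Then every minimal prime over `ker f` is a component. -/
theorem exists_component_eq {C : Type*} (q : C → Ideal R) (hq : ∀ c, (q c).IsPrime) (n : ℕ)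
    (hdim : ∀ c, ringKrullDim (R ⧸ q c) ≤ n) (hn : (n : WithBot ℕ∞) ≤ ringKrullDim S)
    (htf : ∀ (s : S) (x : M), s • x = 0 → s = 0 ∨ x = 0)
    (f : R →+* Module.End S M) (hS : ∀ s : S, ∃ r, f r = algebraMap S (Module.End S M) s)
    (hcov : ∀ P : Ideal R, P.IsPrime → RingHom.ker f ≤ P → ∃ c, q c ≤ P)
    (P : Ideal R) (hP : P ∈ (RingHom.ker f).minimalPrimes) : ∃ c, q c = P := by
  have hPp : P.IsPrime := hP.1.1
  obtain ⟨c, hc⟩ := hcov P hPp hP.1.2
  have := hq c
  exact ⟨c, eq_of_le_of_ringKrullDim hc n (hdim c)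
    (hn.trans (ringKrullDim_le_of_mem_minimalPrimes htf f hS P hP))⟩

/-- For every prime `P ⊇ ker f` there is a component `q c` with `ker f ≤ q c ≤ P`. -/
theorem exists_component_le {C : Type*} (q : C → Ideal R) (hq : ∀ c, (q c).IsPrime) (n : ℕ)
    (hdim : ∀ c, ringKrullDim (R ⧸ q c) ≤ n) (hn : (n : WithBot ℕ∞) ≤ ringKrullDim S)
    (htf : ∀ (s : S) (x : M), s • x = 0 → s = 0 ∨ x = 0)
    (f : R →+* Module.End S M) (hS : ∀ s : S, ∃ r, f r = algebraMap S (Module.End S M) s)
    (hcov : ∀ P : Ideal R, P.IsPrime → RingHom.ker f ≤ P → ∃ c, q c ≤ P)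
    (P : Ideal R) (hP : P.IsPrime) (hfP : RingHom.ker f ≤ P) :
    ∃ c, RingHom.ker f ≤ q c ∧ q c ≤ P := by
  obtain ⟨Q, hQ1, hQ2⟩ := Ideal.exists_minimalPrimes_le hfP
  obtain ⟨c, hc⟩ := exists_component_eq q hq n hdim hn htf f hS hcov Q hQ1
  exact ⟨c, hc ▸ hQ1.1.2, hc ▸ hQ2⟩

/-- there is a component in the support if `M ≠ 0`. -/
theorem exists_component {C : Type*} (q : C → Ideal R) (hq : ∀ c, (q c).IsPrime) (n : ℕ)
    (hdim : ∀ c, ringKrullDim (R ⧸ q c) ≤ n) (hn : (n : WithBot ℕ∞) ≤ ringKrullDim S)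
    (htf : ∀ (s : S) (x : M), s • x = 0 → s = 0 ∨ x = 0)
    (f : R →+* Module.End S M) (hS : ∀ s : S, ∃ r, f r = algebraMap S (Module.End S M) s)
    (hcov : ∀ P : Ideal R, P.IsPrime → RingHom.ker f ≤ P → ∃ c, q c ≤ P) [Nontrivial M] :
    ∃ c, RingHom.ker f ≤ q c := by
  have hne : RingHom.ker f ≠ ⊤ := by
    rw [Ideal.ne_top_iff_one, RingHom.mem_ker, map_one]
    intro h
    obtain ⟨x, hx⟩ := exists_ne (0 : M)
    exact hx (LinearMap.congr_fun h x)
  obtain ⟨P, hP1, hP2⟩ := Ideal.exists_le_maximal _ hne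
  obtain ⟨c, hc, -⟩ := exists_component_le q hq n hdim hn htf f hS hcov P hP1.isPrime hP2
  exact ⟨c, hc⟩

/-- If `q c` are components whose intersection acts as zero then the covering hypothesis holds. -/
theorem cover_of_iInf {C : Type*} [Finite C] (q : C → Ideal R)
    (f : R →+* Module.End S M) (h : ∀ r, (∀ c, r ∈ q c) → f r = 0)
    (P : Ideal R) (hP : P.IsPrime) (hf : RingHom.ker f ≤ P) : ∃ c, q c ≤ P := by
  classical
  cases nonempty_fintype C
  have h1 : (Finset.univ.inf q) ≤ P := by
    refine le_trans (fun r hr => ?_) hf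
    rw [RingHom.mem_ker]
    apply h
    intro c
    exact (Finset.inf_le (Finset.mem_univ c) : Finset.univ.inf q ≤ q c) hr
  rw [hP.inf_le'] at h1
  obtain ⟨c, -, hc⟩ := h1
  exact ⟨c, hc⟩

/-- An element killing a vector whose annihilator lies in `P` lies in a component below `P`. -/
theorem mem_component_of_smul_eq_zero [IsNoetherianRing S]
    {C : Type*} (q : C → Ideal R) (hq : ∀ c, (q c).IsPrime) (n : ℕ)
    (hdim : ∀ c, ringKrullDim (R ⧸ q c) ≤ n) (hn : (n : WithBot ℕ∞) ≤ ringKrullDim S)
    (htf : ∀ (s : S) (x : M), s • x = 0 → s = 0 ∨ x = 0)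
    (f : R →+* Module.End S M) (hS : ∀ s : S, ∃ r, f r = algebraMap S (Module.End S M) s)
    (hcov : ∀ P : Ideal R, P.IsPrime → RingHom.ker f ≤ P → ∃ c, q c ≤ P)
    (P : Ideal R) (hP : P.IsPrime) (v : M) (hv : ∀ r, f r v = 0 → r ∈ P) :
    ∃ c, q c ≤ P ∧ ∀ a, f a v = 0 → a ∈ q c := by
  -- the S-submodule generated by f(R) v
  let W : Submodule S M :=
    { carrier := {x | ∃ r, f r v = x}
      add_mem' := by
        rintro _ _ ⟨a, rfl⟩ ⟨b, rfl⟩
        exact ⟨a + b, by rw [map_add, LinearMap.add_apply]⟩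
      zero_mem' := ⟨0, by rw [map_zero, LinearMap.zero_apply]⟩
      smul_mem' := by
        rintro s _ ⟨a, rfl⟩
        obtain ⟨r, hr⟩ := hS s
        exact ⟨r * a, by rw [map_mul, hr, Module.End.mul_apply, Module.algebraMap_end_apply]⟩ }
  have hW : ∀ r, ∀ x ∈ W, f r x ∈ W := by
    rintro r _ ⟨a, rfl⟩
    exact ⟨r * a, by rw [map_mul, Module.End.mul_apply]⟩
  let fW : R →+* Module.End S W :=
    { toFun := fun r => (f r).restrict (hW r)
      map_one' := by ext x; simp
      map_zero' := by ext x; simp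
      map_add' := fun a b => by ext x; simp
      map_mul' := fun a b => by ext x; simp }
  have hfW : ∀ r x, ((fW r x : W) : M) = f r x := fun r x => rfl
  have hker : ∀ r, fW r = 0 ↔ f r v = 0 := by
    intro r
    constructor
    · intro h
      have h1 := congrArg Subtype.val (LinearMap.congr_fun h ⟨v, 1, by simp⟩)
      exact h1
    · intro h
      ext ⟨x, a, ha⟩
      rw [hfW]
      show f r x = 0
      rw [← ha]
      have : f r (f a v) = f a (f r v) := by
        rw [← Module.End.mul_apply, ← map_mul, mul_comm, map_mul, Module.End.mul_apply]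
      rw [this, h, map_zero]
  have hfin : Module.Finite S W := inferInstance
  obtain ⟨c, hc1, hc2⟩ := exists_component_le (M := W) q hq n hdim hn
    (fun s x hsx => by
      rcases htf s x.1 (congrArg Subtype.val hsx) with h | h
      · exact Or.inl h
      · exact Or.inr (Subtype.ext h)) fW
    (fun s => by
      obtain ⟨r, hr⟩ := hS s
      refine ⟨r, ?_⟩
      ext x
      rw [hfW, hr]
      rfl)
    (fun P hP hfP => hcov P hP (le_trans (fun r hr => by
      rw [RingHom.mem_ker] at hr ⊢
      rw [hker, hr, LinearMap.zero_apply]) hfP)) P hP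
    (fun r hr => hv r ((hker r).1 hr))
  exact ⟨c, hc2, fun a ha => hc1 ((hker a).2 ha)⟩

end Support

end Fermat.Agent.RT1
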