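import Mathlib

/-!
# Ultralimits in complete rings with finite quotients (patching algebra, RT1)
-/

set_option autoImplicit false

namespace Fermat.Agent.RT1

open Filter IsLocalRing

/-- The ultrafilter used for patching. -/
noncomputable abbrev UF : Ultrafilter ℕ := hyperfilter ℕ

theorem eventually_UF_of_atTop {p : ℕ → Prop} (h : ∀ᶠ n in atTop, p n) :
    ∀ᶠ n in (UF : Filter ℕ), p n := h.filter_mono Nat.hyperfilter_le_atTop

section Gen

variable {A : Type*} [CommRing A] (I : Ideal A)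

theorem exists_ulim [IsAdicComplete I A] (hfin : ∀ k, Finite (A ⧸ I ^ k)) (a : ℕ → A) :
    ∃ L : A, ∀ k, ∀ᶠ n in (UF : Filter ℕ), a n - L ∈ I ^ k := by
  have h1 : ∀ k, ∃ b : A, ∀ᶠ n in (UF : Filter ℕ), a n - b ∈ I ^ k := by
    intro k
    have := hfin k
    obtain ⟨c, hc⟩ := Ultrafilter.eq_pure_of_finite
      (UF.map (fun n => Ideal.Quotient.mk (I ^ k) (a n)))
    obtain ⟨b, rfl⟩ := Ideal.Quotient.mk_surjective c
    refine ⟨b, ?_⟩
    have h2 : {Ideal.Quotient.mk (I ^ k) b} ∈
        (UF.map (fun n => Ideal.Quotient.mk (I ^ k) (a n))) := by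
      rw [hc]; exact Ultrafilter.mem_pure.2 rfl
    have h3 : ∀ᶠ n in (UF : Filter ℕ),
        Ideal.Quotient.mk (I ^ k) (a n) = Ideal.Quotient.mk (I ^ k) b := h2
    exact h3.mono fun n hn => Ideal.Quotient.eq.1 hn
  choose b hb using h1
  have hcauchy : ∀ {m n : ℕ}, m ≤ n → b m ≡ b n [SMOD (I ^ m • ⊤ : Submodule A A)] := by
    intro m n hmn
    obtain ⟨i, hi1, hi2⟩ := ((hb m).and (hb n)).exists
    rw [SModEq.sub_mem, smul_eq_mul, Ideal.mul_top]
    have h4 : b m - b n = (a i - b n) - (a i - b m) := by ring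
    rw [h4]
    exact Ideal.sub_mem _ (Ideal.pow_le_pow_right hmn hi2) hi1
  obtain ⟨L, hL⟩ := IsPrecomplete.prec (I := I) (M := A) inferInstance hcauchy
  refine ⟨L, fun k => (hb k).mono fun n hn => ?_⟩
  have h5 := hL k
  rw [SModEq.sub_mem, smul_eq_mul, Ideal.mul_top] at h5
  have h6 : a n - L = (a n - b k) + (b k - L) := by ring
  rw [h6]
  exact Ideal.add_mem _ hn h5

theorem eq_of_sub_mem_pow [IsHausdorff I A] {x y : A} (h : ∀ k, x - y ∈ I ^ k) : x = y := by
  rw [← sub_eq_zero]
  refine IsHausdorff.haus (I := I) (M := A) inferInstance _ fun k => ?_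
  rw [SModEq.zero, smul_eq_mul, Ideal.mul_top]
  exact h k

theorem ulim_unique [IsHausdorff I A] {a : ℕ → A} {L L' : A}
    (h : ∀ k, ∀ᶠ n in (UF : Filter ℕ), a n - L ∈ I ^ k)
    (h' : ∀ k, ∀ᶠ n in (UF : Filter ℕ), a n - L' ∈ I ^ k) : L = L' := by
  refine eq_of_sub_mem_pow I fun k => ?_
  obtain ⟨i, hi1, hi2⟩ := ((h k).and (h' k)).exists
  have : L - L' = (a i - L') - (a i - L) := by ring
  rw [this]
  exact Ideal.sub_mem _ hi2 hi1

end Gen

section Loc

variable (A : Type*) [CommRing A] [IsLocalRing A] [IsNoetherianRing A]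
  [IsAdicComplete (maximalIdeal A) A] [Finite (ResidueField A)]

theorem finite_quotient_maximalIdeal_pow (A : Type*) [CommRing A] [IsLocalRing A]
    [IsNoetherianRing A] [Finite (ResidueField A)] (k : ℕ) : Finite (A ⧸ maximalIdeal A ^ k) := by
  have : Finite (A ⧸ maximalIdeal A) := ‹_›
  exact Ideal.finite_quotient_pow (IsNoetherian.noetherian (maximalIdeal A)) k

variable {A}

/-- The ultralimit of a sequence in a complete noetherian local ring with finite residue field. -/
noncomputable def ulim (a : ℕ → A) : A :=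
  (exists_ulim (maximalIdeal A) (finite_quotient_maximalIdeal_pow A) a).choose

theorem ulim_spec (a : ℕ → A) (k : ℕ) :
    ∀ᶠ n in (UF : Filter ℕ), a n - ulim a ∈ maximalIdeal A ^ k :=
  (exists_ulim (maximalIdeal A) (finite_quotient_maximalIdeal_pow A) a).choose_spec k

theorem ulim_eq {a : ℕ → A} {L : A}
    (h : ∀ k, ∀ᶠ n in (UF : Filter ℕ), a n - L ∈ maximalIdeal A ^ k) : ulim a = L :=
  ulim_unique (maximalIdeal A) (ulim_spec a) h

theorem ulim_const (x : A) : ulim (fun _ => x) = x :=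
  ulim_eq fun k => Eventually.of_forall fun n => by simp

theorem ulim_add (a b : ℕ → A) : ulim (fun n => a n + b n) = ulim a + ulim b := by
  refine ulim_eq fun k => ?_
  filter_upwards [ulim_spec a k, ulim_spec b k] with n h1 h2
  have : a n + b n - (ulim a + ulim b) = (a n - ulim a) + (b n - ulim b) := by ring
  rw [this]
  exact Ideal.add_mem _ h1 h2

theorem ulim_mul (a b : ℕ → A) : ulim (fun n => a n * b n) = ulim a * ulim b := by
  refine ulim_eq fun k => ?_
  filter_upwards [ulim_spec a k, ulim_spec b k] with n h1 h2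
  have : a n * b n - (ulim a * ulim b) = (a n - ulim a) * b n + ulim a * (b n - ulim b) := by ring
  rw [this]
  exact Ideal.add_mem _ (Ideal.mul_mem_right _ _ h1) (Ideal.mul_mem_left _ _ h2)

/-- The ultralimit as a ring homomorphism. -/
noncomputable def ulimHom : (ℕ → A) →+* A where
  toFun := ulim
  map_one' := ulim_const 1
  map_zero' := ulim_const 0
  map_add' := ulim_add
  map_mul' := ulim_mul

/-- ideals of a noetherian local ring are closed. -/
theorem mem_of_forall_sup_pow (A : Type*) [CommRing A] [IsLocalRing A] [IsNoetherianRing A]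
    (J : Ideal A) {x : A} (h : ∀ k, x ∈ J ⊔ maximalIdeal A ^ k) : x ∈ J := by
  by_cases hJ : J = ⊤
  · rw [hJ]; trivial
  have : Nontrivial (A ⧸ J) := Ideal.Quotient.nontrivial_iff.mpr hJ
  have := IsLocalRing.of_surjective' (Ideal.Quotient.mk J) Ideal.Quotient.mk_surjective
  have hmap : ∀ k, Ideal.Quotient.mk J x ∈ maximalIdeal (A ⧸ J) ^ k := by
    intro k
    have h1 : (maximalIdeal A).map (Ideal.Quotient.mk J) ≤ maximalIdeal (A ⧸ J) := by
      rw [Ideal.map_le_iff_le_comap]
      intro y hy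
      rw [Ideal.mem_comap, mem_maximalIdeal, mem_nonunits_iff]
      intro hu
      have hloc : IsLocalHom (Ideal.Quotient.mk J) :=
        IsLocalHom.of_surjective _ Ideal.Quotient.mk_surjective
      exact (mem_maximalIdeal y).1 hy (isUnit_of_map_unit (Ideal.Quotient.mk J) y hu)
    have h2 := Ideal.mem_map_of_mem (Ideal.Quotient.mk J) (h k)
    rw [Ideal.map_sup, Ideal.map_quotient_self, bot_sup_eq, Ideal.map_pow] at h2
    exact Ideal.pow_right_mono h1 k h2
  have hbot : (⨅ k : ℕ, maximalIdeal (A ⧸ J) ^ k) = ⊥ :=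
    Ideal.iInf_pow_eq_bot_of_isLocalRing _ (IsLocalRing.maximalIdeal.isMaximal _).ne_top
  have h3 : Ideal.Quotient.mk J x ∈ (⨅ k : ℕ, maximalIdeal (A ⧸ J) ^ k) := by
    rw [Ideal.mem_iInf]; exact hmap
  rw [hbot, Ideal.mem_bot] at h3
  exact Ideal.Quotient.eq_zero_iff_mem.1 h3

theorem ulim_mem (J : Ideal A) {a : ℕ → A} (h : ∀ᶠ n in (UF : Filter ℕ), a n ∈ J) :
    ulim a ∈ J := by
  refine mem_of_forall_sup_pow A J fun k => ?_
  obtain ⟨n, hn1, hn2⟩ := (h.and (ulim_spec a k)).exists
  have : ulim a = a n - (a n - ulim a) := by ring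
  rw [this]
  exact Ideal.sub_mem _ (Ideal.mem_sup_left hn1) (Ideal.mem_sup_right hn2)

end Loc

end Fermat.Agent.RT1
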