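import Mathlib
import Fermat.Agent.RT1.ULim
import Fermat.Agent.RT1.Dim
import Fermat.Prelude.Thm_IsAdicComplete_of_module_finite

/-!
# Power series rings over complete local rings (RT1)
-/

set_option autoImplicit false
set_option linter.unusedSectionVars false
set_option linter.unusedVariables false

namespace Fermat.Agent.RT1

open IsLocalRing

section One

variable {A : Type*} [CommRing A] [IsLocalRing A]

theorem mem_maximalIdeal_ps (f : PowerSeries A) : f ∈ maximalIdeal (PowerSeries A) ↔
    PowerSeries.constantCoeff f ∈ maximalIdeal A := by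
  rw [mem_maximalIdeal, mem_maximalIdeal, mem_nonunits_iff, mem_nonunits_iff,
    PowerSeries.isUnit_iff_constantCoeff]

theorem mem_maximalIdeal_pow_ps (k : ℕ) (f : PowerSeries A) :
    f ∈ maximalIdeal (PowerSeries A) ^ k ↔ ∀ i, PowerSeries.coeff i f ∈ maximalIdeal A ^ (k - i) := by
  constructor
  · intro hf
    induction k generalizing f with
    | zero => intro i; simp
    | succ k ih =>
      rw [pow_succ] at hf
      refine Submodule.mul_induction_on hf ?_ ?_
      · intro g hg h hh i
        have hg' := ih g hg
        rw [mem_maximalIdeal_ps] at hh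
        rw [PowerSeries.coeff_mul]
        refine Ideal.sum_mem _ fun x hx => ?_
        rw [Finset.HasAntidiagonal.mem_antidiagonal] at hx
        rcases Nat.eq_zero_or_pos x.2 with h0 | h0
        · have h1 : k + 1 - i ≤ (k - x.1) + 1 := by omega
          refine Ideal.pow_le_pow_right h1 ?_
          rw [pow_succ]
          refine Ideal.mul_mem_mul (hg' x.1) ?_
          rw [h0]
          simpa using hh
        · have h1 : k + 1 - i ≤ k - x.1 := by omega
          exact Ideal.mul_mem_right _ _ (Ideal.pow_le_pow_right h1 (hg' x.1))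
      · intro g h hg hh i
        rw [map_add]
        exact Ideal.add_mem _ (hg i) (hh i)
  · intro hf
    have hX : (PowerSeries.X : PowerSeries A) ∈ maximalIdeal (PowerSeries A) := by
      rw [mem_maximalIdeal_ps]; simp
    have hC : (maximalIdeal A).map (PowerSeries.C : A →+* PowerSeries A) ≤
        maximalIdeal (PowerSeries A) := by
      rw [Ideal.map_le_iff_le_comap]
      intro a ha
      rw [Ideal.mem_comap, mem_maximalIdeal_ps]
      simpa using ha
    have key : ∀ j, j ≤ k → ∃ g : PowerSeries A,
        f - PowerSeries.X ^ j * g ∈ maximalIdeal (PowerSeries A) ^ k ∧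
        ∀ i, PowerSeries.coeff i g = PowerSeries.coeff (i + j) f := by
      intro j
      induction j with
      | zero => intro _; exact ⟨f, by simp, by simp⟩
      | succ j ih =>
        intro hj
        obtain ⟨g, hg1, hg2⟩ := ih (by omega)
        refine ⟨PowerSeries.mk fun p => PowerSeries.coeff (p + 1) g, ?_, ?_⟩
        · have h1 : f - PowerSeries.X ^ (j + 1) * (PowerSeries.mk fun p =>
              PowerSeries.coeff (p + 1) g) =
            (f - PowerSeries.X ^ j * g) +
              PowerSeries.X ^ j * PowerSeries.C (PowerSeries.constantCoeff g) := by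
            conv_lhs => rw [pow_succ]
            conv_rhs => rw [g.eq_X_mul_shift_add_const]
            simp only [map_add, map_mul, PowerSeries.constantCoeff_X, zero_mul,
              PowerSeries.constantCoeff_C, zero_add]
            have h2 : (PowerSeries.mk fun p => PowerSeries.coeff (p + 1)
                (PowerSeries.X * (PowerSeries.mk fun p => PowerSeries.coeff (p + 1) g) +
                  PowerSeries.C (PowerSeries.constantCoeff g))) =
                (PowerSeries.mk fun p => PowerSeries.coeff (p + 1) g) := by
              rw [← g.eq_X_mul_shift_add_const]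
            ring
          rw [h1]
          refine Ideal.add_mem _ hg1 ?_
          have h3 : PowerSeries.constantCoeff g ∈ maximalIdeal A ^ (k - j) := by
            have := hf j
            rw [← PowerSeries.coeff_zero_eq_constantCoeff_apply, hg2 0, zero_add]
            exact this
          have h4 : maximalIdeal (PowerSeries A) ^ k = maximalIdeal (PowerSeries A) ^ j *
              maximalIdeal (PowerSeries A) ^ (k - j) := by
            rw [← pow_add, Nat.add_sub_cancel' (by omega)]
          rw [h4]
          refine Ideal.mul_mem_mul (Ideal.pow_mem_pow hX j) ?_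
          refine Ideal.pow_right_mono hC (k - j) ?_
          rw [← Ideal.map_pow]
          exact Ideal.mem_map_of_mem _ h3
        · intro i
          rw [PowerSeries.coeff_mk, hg2, show i + 1 + j = i + (j + 1) by omega]
    obtain ⟨g, hg, -⟩ := key k le_rfl
    have : f = (f - PowerSeries.X ^ k * g) + PowerSeries.X ^ k * g := by ring
    rw [this]
    exact Ideal.add_mem _ hg (Ideal.mul_mem_right _ _ (Ideal.pow_mem_pow hX k))

instance isAdicComplete_ps [IsAdicComplete (maximalIdeal A) A] :
    IsAdicComplete (maximalIdeal (PowerSeries A)) (PowerSeries A) where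
  haus' := by
    intro f hf
    ext i
    refine eq_of_sub_mem_pow (maximalIdeal A) fun k => ?_
    have h1 := hf (k + i)
    rw [SModEq.zero, smul_eq_mul, Ideal.mul_top, mem_maximalIdeal_pow_ps] at h1
    have := h1 i
    rw [Nat.add_sub_cancel] at this
    simpa using this
  prec' := by
    intro f hf
    have hf' : ∀ {m n : ℕ}, m ≤ n → ∀ i, PowerSeries.coeff i (f m) - PowerSeries.coeff i (f n) ∈
        maximalIdeal A ^ (m - i) := by
      intro m n hmn i
      have h1 := hf hmn
      rw [SModEq.sub_mem, smul_eq_mul, Ideal.mul_top, mem_maximalIdeal_pow_ps] at h1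
      have := h1 i
      rwa [map_sub] at this
    have hc : ∀ i, ∃ L : A, ∀ j, PowerSeries.coeff i (f (j + i)) - L ∈ maximalIdeal A ^ j := by
      intro i
      obtain ⟨L, hL⟩ := IsPrecomplete.prec (I := maximalIdeal A) (M := A) inferInstance
        (f := fun j => PowerSeries.coeff i (f (j + i))) (by
          intro m n hmn
          rw [SModEq.sub_mem, smul_eq_mul, Ideal.mul_top]
          have := hf' (show m + i ≤ n + i by omega) i
          rwa [Nat.add_sub_cancel] at this)
      refine ⟨L, fun j => ?_⟩
      have := hL j
      rwa [SModEq.sub_mem, smul_eq_mul, Ideal.mul_top] at this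
    choose L hL using hc
    refine ⟨PowerSeries.mk L, fun n => ?_⟩
    rw [SModEq.sub_mem, smul_eq_mul, Ideal.mul_top, mem_maximalIdeal_pow_ps]
    intro i
    rw [map_sub, PowerSeries.coeff_mk]
    rcases le_or_gt i n with h | h
    · have := hL i (n - i)
      rwa [Nat.sub_add_cancel h] at this
    · have : n - i = 0 := by omega
      rw [this, pow_zero, Ideal.one_eq_top]
      trivial

theorem residue_comp_C_surjective_ps : Function.Surjective
    ((residue (PowerSeries A)).comp (PowerSeries.C : A →+* PowerSeries A)) := by
  intro x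
  obtain ⟨f, rfl⟩ := residue_surjective x
  refine ⟨PowerSeries.constantCoeff f, ?_⟩
  rw [RingHom.comp_apply]
  apply Ideal.Quotient.eq.2
  rw [mem_maximalIdeal_ps]
  simp

instance finite_residueField_ps [Finite (ResidueField A)] :
    Finite (ResidueField (PowerSeries A)) := by
  have h : ∀ a ∈ maximalIdeal A,
      ((residue (PowerSeries A)).comp (PowerSeries.C : A →+* PowerSeries A)) a = 0 := by
    intro a ha
    rw [RingHom.comp_apply, residue_eq_zero_iff, mem_maximalIdeal_ps]
    simpa using ha
  have h2 : Function.Surjective (Ideal.Quotient.lift (maximalIdeal A)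
      ((residue (PowerSeries A)).comp (PowerSeries.C : A →+* PowerSeries A)) h) :=
    Ideal.Quotient.lift_surjective_of_surjective _ _ residue_comp_C_surjective_ps
  have : Finite (A ⧸ maximalIdeal A) := ‹Finite (ResidueField A)›
  exact Finite.of_surjective _ h2

end One

section Transfer

variable {A B : Type*} [CommRing A] [CommRing B] [IsLocalRing A] [IsLocalRing B] (e : A ≃+* B)

theorem map_maximalIdeal_ringEquiv : (maximalIdeal A).map e = maximalIdeal B := by
  apply le_antisymm
  · rw [Ideal.map_le_iff_le_comap]
    intro a ha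
    rw [Ideal.mem_comap, mem_maximalIdeal, mem_nonunits_iff]
    intro hu
    have : IsUnit a := by simpa using hu
    exact (mem_maximalIdeal a).1 ha this
  · intro b hb
    have : b = e (e.symm b) := by simp
    rw [this]
    refine Ideal.mem_map_of_mem _ ?_
    rw [mem_maximalIdeal, mem_nonunits_iff]
    intro hu
    exact (mem_maximalIdeal b).1 hb (by simpa using hu)

include e in
theorem isAdicComplete_of_ringEquiv [IsAdicComplete (maximalIdeal A) A] :
    IsAdicComplete (maximalIdeal B) B := by
  rw [← map_maximalIdeal_ringEquiv e, IsAdicComplete.congr_ringEquiv]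
  infer_instance

include e in
theorem finite_residueField_of_ringEquiv [Finite (ResidueField A)] :
    Finite (ResidueField B) := by
  have h : Function.Surjective ((residue B).comp (e : A →+* B)) :=
    residue_surjective.comp e.surjective
  have h1 : ∀ a ∈ maximalIdeal A, ((residue B).comp (e : A →+* B)) a = 0 := by
    intro a ha
    rw [RingHom.comp_apply, residue_eq_zero_iff, ← map_maximalIdeal_ringEquiv e]
    exact Ideal.mem_map_of_mem _ ha
  have : Finite (A ⧸ maximalIdeal A) := ‹Finite (ResidueField A)›
  exact Finite.of_surjective _ (Ideal.Quotient.lift_surjective_of_surjective _ h1 h)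

end Transfer

section Mv

variable {A : Type*} [CommRing A] [IsLocalRing A]

theorem isAdicComplete_mv_fin [IsAdicComplete (maximalIdeal A) A] (n : ℕ) :
    IsAdicComplete (maximalIdeal (MvPowerSeries (Fin n) A)) (MvPowerSeries (Fin n) A) := by
  induction n with
  | zero =>
    exact isAdicComplete_of_ringEquiv (MvPowerSeries.isEmptyEquiv (σ := Fin 0) (R := A)).toRingEquiv.symm
  | succ n ih =>
    exact isAdicComplete_of_ringEquiv (MvPowerSeries.finSuccEquiv A n).toRingEquiv.symm

theorem finite_residueField_mv_fin [Finite (ResidueField A)] (n : ℕ) :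
    Finite (ResidueField (MvPowerSeries (Fin n) A)) := by
  induction n with
  | zero =>
    exact finite_residueField_of_ringEquiv
      (MvPowerSeries.isEmptyEquiv (σ := Fin 0) (R := A)).toRingEquiv.symm
  | succ n ih =>
    exact finite_residueField_of_ringEquiv (MvPowerSeries.finSuccEquiv A n).toRingEquiv.symm

instance isAdicComplete_mv {σ : Type*} [Finite σ] [IsAdicComplete (maximalIdeal A) A] :
    IsAdicComplete (maximalIdeal (MvPowerSeries σ A)) (MvPowerSeries σ A) := by
  obtain ⟨n, ⟨e⟩⟩ := Finite.exists_equiv_fin σ
  have := isAdicComplete_mv_fin (A := A) n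
  exact isAdicComplete_of_ringEquiv (MvPowerSeries.renameEquiv A e).toRingEquiv.symm

instance finite_residueField_mv {σ : Type*} [Finite σ] [Finite (ResidueField A)] :
    Finite (ResidueField (MvPowerSeries σ A)) := by
  obtain ⟨n, ⟨e⟩⟩ := Finite.exists_equiv_fin σ
  have := finite_residueField_mv_fin (A := A) n
  exact finite_residueField_of_ringEquiv (MvPowerSeries.renameEquiv A e).toRingEquiv.symm

end Mv

section Dim

theorem add_le_ringKrullDim_mv_fin {A : Type*} [CommRing A] (n : ℕ) :
    ringKrullDim A + n ≤ ringKrullDim (MvPowerSeries (Fin n) A) := by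
  induction n with
  | zero =>
    rw [ringKrullDim_eq_of_ringEquiv
      (MvPowerSeries.isEmptyEquiv (σ := Fin 0) (R := A)).toRingEquiv]
    simp
  | succ n ih =>
    rw [ringKrullDim_eq_of_ringEquiv (MvPowerSeries.finSuccEquiv A n).toRingEquiv]
    refine le_trans ?_ ringKrullDim_succ_le_ringKrullDim_powerseries
    rw [Nat.cast_add, Nat.cast_one, ← add_assoc]
    exact add_le_add_left ih 1

theorem add_le_ringKrullDim_mv {A : Type*} [CommRing A] {σ : Type*} [Finite σ] :
    ringKrullDim A + (Nat.card σ : ℕ) ≤ ringKrullDim (MvPowerSeries σ A) := by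
  obtain ⟨n, ⟨e⟩⟩ := Finite.exists_equiv_fin σ
  rw [Nat.card_congr e, Nat.card_eq_fintype_card, Fintype.card_fin,
    ringKrullDim_eq_of_ringEquiv (MvPowerSeries.renameEquiv A e).toRingEquiv]
  exact add_le_ringKrullDim_mv_fin n

/-- dimension of a power series ring over a DVR is at least `n + 1`. -/
theorem le_ringKrullDim_mv_dvr {O : Type*} [CommRing O] [IsDomain O] [IsDiscreteValuationRing O]
    {σ : Type*} [Finite σ] :
    ((Nat.card σ + 1 : ℕ) : WithBot ℕ∞) ≤ ringKrullDim (MvPowerSeries σ O) := by
  refine le_trans ?_ add_le_ringKrullDim_mv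
  have h1 : (1 : WithBot ℕ∞) ≤ ringKrullDim O := by
    obtain ⟨ϖ, hϖ⟩ := IsDiscreteValuationRing.exists_irreducible O
    have h2 := ringKrullDim_succ_le_of_surjective (Ideal.Quotient.mk (maximalIdeal O))
      Ideal.Quotient.mk_surjective (r := ϖ) (mem_nonZeroDivisors_of_ne_zero hϖ.ne_zero)
      (Ideal.Quotient.eq_zero_iff_mem.2 (by rw [hϖ.maximalIdeal_eq]; exact Ideal.mem_span_singleton_self ϖ))
    refine le_trans ?_ h2
    have : (0 : WithBot ℕ∞) ≤ ringKrullDim (O ⧸ maximalIdeal O) :=
      ringKrullDim_nonneg_of_nontrivial
    simpa using add_le_add_left this 1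
  rw [Nat.cast_add, Nat.cast_one, add_comm]
  exact add_le_add_left h1 _

end Dim

section Quot

/-- quotients of complete noetherian local rings are complete. -/
theorem isAdicComplete_quotient {A : Type*} [CommRing A] [IsLocalRing A] [IsNoetherianRing A]
    [IsAdicComplete (maximalIdeal A) A] (J : Ideal A) [IsLocalRing (A ⧸ J)] :
    IsAdicComplete (maximalIdeal (A ⧸ J)) (A ⧸ J) := by
  have h1 : IsAdicComplete (maximalIdeal A) (A ⧸ J) :=
    IsAdicComplete.of_module_finite (maximalIdeal A) (A ⧸ J)
  have h2 : (maximalIdeal A).map (algebraMap A (A ⧸ J)) = maximalIdeal (A ⧸ J) := by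
    have hloc : IsLocalHom (Ideal.Quotient.mk J) :=
      IsLocalHom.of_surjective _ Ideal.Quotient.mk_surjective
    apply le_antisymm
    · rw [Ideal.map_le_iff_le_comap]
      intro y hy
      rw [Ideal.mem_comap, mem_maximalIdeal, mem_nonunits_iff]
      intro hu
      exact (mem_maximalIdeal y).1 hy (isUnit_of_map_unit (Ideal.Quotient.mk J) y hu)
    · intro x hx
      obtain ⟨y, rfl⟩ := Ideal.Quotient.mk_surjective x
      refine Ideal.mem_map_of_mem (algebraMap A (A ⧸ J)) ?_
      rw [mem_maximalIdeal, mem_nonunits_iff] at hx ⊢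
      exact fun hu => hx (hu.map _)
  rw [← h2]
  exact (IsAdicComplete.map_algebraMap_iff (R := A) (S := A ⧸ J) (M := A ⧸ J)
    (maximalIdeal A)).2 h1

theorem finite_residueField_quotient {A : Type*} [CommRing A] [IsLocalRing A]
    [Finite (ResidueField A)] (J : Ideal A) [IsLocalRing (A ⧸ J)] :
    Finite (ResidueField (A ⧸ J)) := by
  have h : Function.Surjective ((residue (A ⧸ J)).comp (Ideal.Quotient.mk J)) :=
    residue_surjective.comp Ideal.Quotient.mk_surjective
  have hloc : IsLocalHom (Ideal.Quotient.mk J) :=
    IsLocalHom.of_surjective _ Ideal.Quotient.mk_surjective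
  have h1 : ∀ a ∈ maximalIdeal A, ((residue (A ⧸ J)).comp (Ideal.Quotient.mk J)) a = 0 := by
    intro a ha
    rw [RingHom.comp_apply, residue_eq_zero_iff, mem_maximalIdeal, mem_nonunits_iff]
    intro hu
    exact (mem_maximalIdeal a).1 ha (isUnit_of_map_unit (Ideal.Quotient.mk J) a hu)
  have : Finite (A ⧸ maximalIdeal A) := ‹Finite (ResidueField A)›
  exact Finite.of_surjective _ (Ideal.Quotient.lift_surjective_of_surjective _ h1 h)

end Quot

end Fermat.Agent.RT1
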