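import Mathlib
import Fermat.Agent.RT1.PowSer

/-!
# Evaluation of power series in complete rings (RT1)
-/

set_option autoImplicit false
set_option linter.unusedSectionVars false
set_option linter.unusedVariables false

namespace Fermat.Agent.RT1

open IsLocalRing

section Eval

variable {O A : Type*} [CommRing O] [CommRing A] [Algebra O A] (I : Ideal A)
  {σ : Type*} [Finite σ]

theorem aeval_mem_pow (y : σ → A) (hy : ∀ i, y i ∈ I) (n : ℕ) (p : MvPolynomial σ O)
    (hp : p ∈ MvPolynomial.idealOfVars σ O ^ n) : MvPolynomial.aeval y p ∈ I ^ n := by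
  have h : MvPolynomial.idealOfVars σ O ^ n ≤
      (I ^ n).comap (MvPolynomial.aeval y : MvPolynomial σ O →ₐ[O] A) := by
    rw [← Ideal.map_le_iff_le_comap, Ideal.map_pow]
    refine Ideal.pow_right_mono ?_ n
    rw [Ideal.map_le_iff_le_comap, MvPolynomial.idealOfVars, Ideal.span_le]
    rintro _ ⟨i, rfl⟩
    simp [hy i]
  exact h hp

/-- evaluation modulo `I ^ n` -/
noncomputable def evalMod (y : σ → A) (hy : ∀ i, y i ∈ I) (n : ℕ) :
    MvPowerSeries σ O →+* A ⧸ I ^ n :=
  (Ideal.quotientMap (I ^ n) ((MvPolynomial.aeval y : MvPolynomial σ O →ₐ[O] A) :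
    MvPolynomial σ O →+* A)
    (I := MvPolynomial.idealOfVars σ O ^ n) (fun p hp => aeval_mem_pow I y hy n p hp)).comp
      (MvPowerSeries.truncTotalAlgHom σ O n).toRingHom

theorem evalMod_apply (y : σ → A) (hy : ∀ i, y i ∈ I) (n : ℕ) (s : MvPowerSeries σ O) :
    evalMod I y hy n s = Ideal.Quotient.mk (I ^ n)
      (MvPolynomial.aeval y (MvPowerSeries.truncTotal n s)) := rfl

theorem evalMod_coe (y : σ → A) (hy : ∀ i, y i ∈ I) (n : ℕ) (p : MvPolynomial σ O) :
    evalMod I y hy n (p : MvPowerSeries σ O) =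
      Ideal.Quotient.mk (I ^ n) (MvPolynomial.aeval y p) := by
  have e1 : (MvPowerSeries.truncTotalAlgHom σ O n) (p : MvPowerSeries σ O) =
    Ideal.Quotient.mk _ p := (MvPowerSeries.truncTotalAlgHom σ O n).commutes p
  show (Ideal.quotientMap (I ^ n) ((MvPolynomial.aeval y : MvPolynomial σ O →ₐ[O] A) :
    MvPolynomial σ O →+* A) (fun p hp => aeval_mem_pow I y hy n p hp))
      ((MvPowerSeries.truncTotalAlgHom σ O n) p) = _
  rw [e1]
  rfl

theorem evalMod_compat (y : σ → A) (hy : ∀ i, y i ∈ I) {m n : ℕ} (hle : m ≤ n) :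
    (Ideal.Quotient.factorPow I hle).comp (evalMod (O := O) I y hy n) = evalMod I y hy m := by
  ext s
  rw [RingHom.comp_apply, evalMod_apply, evalMod_apply]
  show Ideal.Quotient.mk (I ^ m) _ = Ideal.Quotient.mk (I ^ m) _
  rw [Ideal.Quotient.mk_eq_mk_iff_sub_mem, ← map_sub]
  exact aeval_mem_pow I y hy m _
    (MvPowerSeries.truncTotal_sub_truncTotal_mem_pow_idealOfVars hle le_rfl s)

variable [IsAdicComplete I A]

/-- evaluation homomorphism -/
noncomputable def evalRingHom (y : σ → A) (hy : ∀ i, y i ∈ I) : MvPowerSeries σ O →+* A :=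
  IsAdicComplete.liftRingHom I (evalMod I y hy) (evalMod_compat I y hy)

theorem evalRingHom_sub_mem (y : σ → A) (hy : ∀ i, y i ∈ I) (n : ℕ) (s : MvPowerSeries σ O) :
    evalRingHom I y hy s - MvPolynomial.aeval y (MvPowerSeries.truncTotal n s) ∈ I ^ n := by
  rw [← Ideal.Quotient.mk_eq_mk_iff_sub_mem, ← evalMod_apply I y hy n s]
  exact IsAdicComplete.mk_liftRingHom I _ (evalMod_compat I y hy) n s

theorem evalRingHom_coe (y : σ → A) (hy : ∀ i, y i ∈ I) (p : MvPolynomial σ O) :
    evalRingHom I y hy (p : MvPowerSeries σ O) = MvPolynomial.aeval y p := by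
  refine eq_of_sub_mem_pow I fun n => ?_
  rw [← Ideal.Quotient.mk_eq_mk_iff_sub_mem, ← evalMod_coe I y hy n p]
  exact IsAdicComplete.mk_liftRingHom I _ (evalMod_compat I y hy) n _

/-- evaluation homomorphism as an algebra homomorphism -/
noncomputable def evalHom (y : σ → A) (hy : ∀ i, y i ∈ I) : MvPowerSeries σ O →ₐ[O] A :=
  { evalRingHom I y hy with
    commutes' := fun o => by
      have h := evalRingHom_coe I y hy (MvPolynomial.C o : MvPolynomial σ O)
      rw [MvPolynomial.coe_C, MvPolynomial.aeval_C] at h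
      exact h }

theorem evalHom_apply (y : σ → A) (hy : ∀ i, y i ∈ I) (s : MvPowerSeries σ O) :
    evalHom I y hy s = evalRingHom I y hy s := rfl

theorem evalHom_coe (y : σ → A) (hy : ∀ i, y i ∈ I) (p : MvPolynomial σ O) :
    evalHom I y hy (p : MvPowerSeries σ O) = MvPolynomial.aeval y p := evalRingHom_coe I y hy p

@[simp] theorem evalHom_X (y : σ → A) (hy : ∀ i, y i ∈ I) (i : σ) :
    evalHom I y hy (MvPowerSeries.X i : MvPowerSeries σ O) = y i := by
  rw [← MvPolynomial.coe_X, evalHom_coe, MvPolynomial.aeval_X]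

theorem evalHom_sub_mem (y : σ → A) (hy : ∀ i, y i ∈ I) (n : ℕ) (s : MvPowerSeries σ O) :
    evalHom I y hy s - MvPolynomial.aeval y (MvPowerSeries.truncTotal n s) ∈ I ^ n :=
  evalRingHom_sub_mem I y hy n s

end Eval

section Uniq

variable {O A : Type*} [CommRing O] [CommRing A]
  {σ : Type*} [Finite σ]

theorem coe_mem_pow (n : ℕ) (p : MvPolynomial σ O) (hp : p ∈ MvPolynomial.idealOfVars σ O ^ n) :
    (p : MvPowerSeries σ O) ∈
      (Ideal.span (Set.range (MvPowerSeries.X : σ → MvPowerSeries σ O))) ^ n := by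
  have h : MvPolynomial.idealOfVars σ O ^ n ≤
      ((Ideal.span (Set.range (MvPowerSeries.X : σ → MvPowerSeries σ O))) ^ n).comap
        (MvPolynomial.coeToMvPowerSeries.ringHom : MvPolynomial σ O →+* _) := by
    rw [← Ideal.map_le_iff_le_comap, Ideal.map_pow]
    refine Ideal.pow_right_mono ?_ n
    rw [Ideal.map_le_iff_le_comap, MvPolynomial.idealOfVars, Ideal.span_le]
    rintro _ ⟨i, rfl⟩
    rw [SetLike.mem_coe, Ideal.mem_comap, MvPolynomial.coeToMvPowerSeries.ringHom_apply,
      MvPolynomial.coe_X]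
    exact Ideal.subset_span ⟨i, rfl⟩
  exact h hp

/-- a power series with vanishing truncation lies in `(X)^n`. -/
theorem mem_of_truncTotal (n : ℕ) (t : MvPowerSeries σ O)
    (ht : (MvPowerSeries.truncTotal n t : MvPolynomial σ O) ∈ MvPolynomial.idealOfVars σ O ^ n) :
    t ∈ (Ideal.span (Set.range (MvPowerSeries.X : σ → MvPowerSeries σ O))) ^ n := by
  let e := MvPowerSeries.toAdicCompletionAlgEquiv σ O
  have h1 : e t ∈ (AdicCompletion.eval (MvPolynomial.idealOfVars σ O)
      (MvPolynomial σ O) n).ker := by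
    rw [LinearMap.mem_ker]
    have h2 : (e t).val n = (Submodule.Quotient.mk (MvPowerSeries.truncTotal n t) :
        MvPolynomial σ O ⧸ (MvPolynomial.idealOfVars σ O ^ n • ⊤ :
          Submodule (MvPolynomial σ O) (MvPolynomial σ O))) := rfl
    have h3 : AdicCompletion.eval (MvPolynomial.idealOfVars σ O) (MvPolynomial σ O) n (e t) =
      (e t).val n := rfl
    rw [h3, h2, Submodule.Quotient.mk_eq_zero]
    rw [smul_eq_mul, Ideal.mul_top]
    exact ht
  rw [← AdicCompletion.pow_smul_top_eq_ker_eval (MvPolynomial.idealOfVars_fg σ O)] at h1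
  have h4 : ∀ z ∈ (MvPolynomial.idealOfVars σ O ^ n • ⊤ : Submodule (MvPolynomial σ O)
      (AdicCompletion (MvPolynomial.idealOfVars σ O) (MvPolynomial σ O))),
      e.symm z ∈ (Ideal.span (Set.range (MvPowerSeries.X : σ → MvPowerSeries σ O))) ^ n := by
    intro z hz
    refine Submodule.smul_induction_on hz ?_ ?_
    · intro p hp w _
      rw [map_smul, Algebra.smul_def]
      exact Ideal.mul_mem_right _ _ (coe_mem_pow n p hp)
    · intro a b ha hb
      rw [map_add]
      exact Ideal.add_mem _ ha hb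
  have := h4 _ h1
  rwa [AlgEquiv.symm_apply_apply] at this

theorem sub_truncTotal_mem (n : ℕ) (s : MvPowerSeries σ O) :
    s - ((MvPowerSeries.truncTotal n s : MvPolynomial σ O) : MvPowerSeries σ O) ∈
      (Ideal.span (Set.range (MvPowerSeries.X : σ → MvPowerSeries σ O))) ^ n := by
  refine mem_of_truncTotal n _ ?_
  refine (MvPolynomial.mem_pow_idealOfVars_iff' ..).mpr (fun x hx ↦ ?_)
  rw [MvPowerSeries.coeff_truncTotal _ hx, map_sub, MvPolynomial.coeff_coe,
    MvPowerSeries.coeff_truncTotal _ hx, sub_self]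

/-- two ring homs to a Hausdorff ring that agree on constants and variables agree. -/
theorem hom_ext (I : Ideal A) [IsHausdorff I A] (f g : MvPowerSeries σ O →+* A)
    (hC : ∀ o, f (MvPowerSeries.C o) = g (MvPowerSeries.C o))
    (hX : ∀ i, f (MvPowerSeries.X i) = g (MvPowerSeries.X i))
    (hI : ∀ i, f (MvPowerSeries.X i) ∈ I) : f = g := by
  have hpoly : ∀ p : MvPolynomial σ O, f (p : MvPowerSeries σ O) = g p := by
    intro p
    have : f.comp (MvPolynomial.coeToMvPowerSeries.ringHom) =
        g.comp (MvPolynomial.coeToMvPowerSeries.ringHom) := by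
      ext i
      · simpa using hC i
      · simpa using hX i
    exact RingHom.congr_fun this p
  have hf : ∀ n, ∀ t ∈ (Ideal.span (Set.range (MvPowerSeries.X : σ → MvPowerSeries σ O))) ^ n,
      f t ∈ I ^ n := by
    intro n t ht
    have h1 : (Ideal.span (Set.range (MvPowerSeries.X : σ → MvPowerSeries σ O))) ^ n ≤
        (I ^ n).comap f := by
      rw [← Ideal.map_le_iff_le_comap, Ideal.map_pow]
      refine Ideal.pow_right_mono ?_ n
      rw [Ideal.map_le_iff_le_comap, Ideal.span_le]
      rintro _ ⟨i, rfl⟩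
      exact hI i
    exact h1 ht
  have hg : ∀ n, ∀ t ∈ (Ideal.span (Set.range (MvPowerSeries.X : σ → MvPowerSeries σ O))) ^ n,
      g t ∈ I ^ n := by
    intro n t ht
    have h1 : (Ideal.span (Set.range (MvPowerSeries.X : σ → MvPowerSeries σ O))) ^ n ≤
        (I ^ n).comap g := by
      rw [← Ideal.map_le_iff_le_comap, Ideal.map_pow]
      refine Ideal.pow_right_mono ?_ n
      rw [Ideal.map_le_iff_le_comap, Ideal.span_le]
      rintro _ ⟨i, rfl⟩
      rw [SetLike.mem_coe, Ideal.mem_comap, ← hX]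
      exact hI i
    exact h1 ht
  ext s
  refine eq_of_sub_mem_pow I fun n => ?_
  have e1 := hf n _ (sub_truncTotal_mem n s)
  have e2 := hg n _ (sub_truncTotal_mem n s)
  rw [map_sub] at e1 e2
  have : f s - g s = (f s - f ((MvPowerSeries.truncTotal n s : MvPolynomial σ O) :
    MvPowerSeries σ O)) - (g s - g ((MvPowerSeries.truncTotal n s : MvPolynomial σ O) :
    MvPowerSeries σ O)) := by
    rw [hpoly]; ring
  rw [this]
  exact Ideal.sub_mem _ e1 e2

end Uniq

section Surj

/-- surjectivity criterion -/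
theorem surjective_of_generators {P A : Type*} [CommRing P] [IsLocalRing P] [IsNoetherianRing P]
    [IsAdicComplete (maximalIdeal P) P] [CommRing A] [IsLocalRing A] [IsNoetherianRing A]
    (f : P →+* A) (hf : (maximalIdeal P).map f ≤ maximalIdeal A)
    (hres : ∀ a : A, ∃ p : P, a - f p ∈ maximalIdeal A)
    (hgen : maximalIdeal A ≤ (maximalIdeal P).map f ⊔ maximalIdeal A ^ 2) :
    Function.Surjective f := by
  have hmax : maximalIdeal A ≤ (maximalIdeal P).map f := by
    have h1 : maximalIdeal A ≤ (maximalIdeal P).map f ⊔ maximalIdeal A • maximalIdeal A := by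
      rw [smul_eq_mul, ← pow_two]
      exact hgen
    exact Submodule.le_of_le_smul_of_le_jacobson_bot (IsNoetherian.noetherian _)
      (IsLocalRing.maximalIdeal_le_jacobson _) h1
  -- every element of A is approximated
  have happ : ∀ k : ℕ, ∀ a ∈ (maximalIdeal A) ^ k, ∃ p ∈ maximalIdeal P ^ k,
      a - f p ∈ maximalIdeal A ^ (k + 1) := by
    intro k a ha
    have h1 : maximalIdeal A ^ k ≤ (maximalIdeal P ^ k).map f := by
      rw [Ideal.map_pow]
      exact Ideal.pow_right_mono hmax k
    have h2 := h1 ha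
    refine Submodule.span_induction (p := fun a _ => ∃ p ∈ maximalIdeal P ^ k,
      a - f p ∈ maximalIdeal A ^ (k + 1)) ?_ ?_ ?_ ?_ h2
    · rintro _ ⟨p, hp, rfl⟩
      exact ⟨p, hp, by simp⟩
    · exact ⟨0, Ideal.zero_mem _, by simp⟩
    · rintro a b _ _ ⟨p, hp, hp'⟩ ⟨q, hq, hq'⟩
      refine ⟨p + q, Ideal.add_mem _ hp hq, ?_⟩
      have : a + b - f (p + q) = (a - f p) + (b - f q) := by rw [map_add]; ring
      rw [this]
      exact Ideal.add_mem _ hp' hq'
    · rintro c a ha' ⟨p, hp, hp'⟩
      obtain ⟨c', hc'⟩ := hres c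
      refine ⟨c' * p, Ideal.mul_mem_left _ _ hp, ?_⟩
      have : c • a - f (c' * p) = c * (a - f p) + (c - f c') * f p := by
        rw [smul_eq_mul, map_mul]; ring
      rw [this]
      refine Ideal.add_mem _ (Ideal.mul_mem_left _ _ hp') ?_
      rw [pow_succ, mul_comm (c - f c')]
      refine Ideal.mul_mem_mul ?_ hc'
      have h3 : (maximalIdeal P ^ k).map f ≤ maximalIdeal A ^ k := by
        rw [Ideal.map_pow]
        exact Ideal.pow_right_mono hf k
      exact h3 (Ideal.mem_map_of_mem f hp)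
  intro a
  -- successive approximation
  have hstep : ∀ (k : ℕ) (x : P), ∃ x' : P, a - f x ∈ maximalIdeal A ^ k →
      (a - f x' ∈ maximalIdeal A ^ (k + 1) ∧ x' - x ∈ maximalIdeal P ^ k) := by
    intro k x
    by_cases h : a - f x ∈ maximalIdeal A ^ k
    · obtain ⟨p, hp, hp'⟩ := happ k _ h
      refine ⟨x + p, fun _ => ⟨?_, by simpa using hp⟩⟩
      rw [map_add]
      have : a - (f x + f p) = (a - f x) - f p := by ring
      rw [this]
      exact hp'
    · exact ⟨x, fun h' => absurd h' h⟩
  choose nxt hnxt using hstep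
  let x : ℕ → P := fun n => Nat.rec 0 (fun k y => nxt k y) n
  have hx0 : x 0 = 0 := rfl
  have hxs : ∀ k, x (k + 1) = nxt k (x k) := fun k => rfl
  have hx : ∀ k, a - f (x k) ∈ maximalIdeal A ^ k := by
    intro k
    induction k with
    | zero => simp
    | succ k ih =>
      rw [hxs]
      exact (hnxt k (x k) ih).1
  have hx' : ∀ k, x (k + 1) - x k ∈ maximalIdeal P ^ k := fun k => (hnxt k (x k) (hx k)).2
  have hcauchy : ∀ {m n : ℕ}, m ≤ n → x m ≡ x n [SMOD (maximalIdeal P ^ m • ⊤ : Submodule P P)] := by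
    intro m n hmn
    rw [SModEq.sub_mem, smul_eq_mul, Ideal.mul_top]
    induction n, hmn using Nat.le_induction with
    | base => simp
    | succ n hn ih =>
      have : x m - x (n + 1) = (x m - x n) - (x (n + 1) - x n) := by ring
      rw [this]
      exact Ideal.sub_mem _ ih (Ideal.pow_le_pow_right hn (hx' n))
  obtain ⟨L, hL⟩ := IsPrecomplete.prec (I := maximalIdeal P) (M := P) inferInstance hcauchy
  refine ⟨L, ?_⟩
  rw [← sub_eq_zero, ← Ideal.mem_bot]
  refine mem_of_forall_sup_pow A ⊥ fun k => Ideal.mem_sup_right ?_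
  have h1 := hL k
  rw [SModEq.sub_mem, smul_eq_mul, Ideal.mul_top] at h1
  have h3 : (maximalIdeal P ^ k).map f ≤ maximalIdeal A ^ k := by
    rw [Ideal.map_pow]
    exact Ideal.pow_right_mono hf k
  have h4 := h3 (Ideal.mem_map_of_mem f h1)
  rw [map_sub] at h4
  have : f L - a = -((f (x k) - f L) + (a - f (x k))) := by ring
  rw [this]
  exact (Ideal.neg_mem_iff _).2 (Ideal.add_mem _ h4 (hx k))

end Surj

end Fermat.Agent.RT1
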