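import Mathlib

/-!
# Core algebra of patching: points, level raising, level lowering (RT1)
-/

set_option autoImplicit false
set_option linter.unusedSectionVars false
set_option linter.unusedVariables false
set_option linter.unusedSimpArgs false

namespace Fermat.Agent.RT1

open Polynomial

/-! ### points -/

/-- If the coefficients of `S` come from `R`, with those in the augmentation ideal coming from
`ker π`, then a point `x` of `R₀` such that `x ∘ π` kills `ker f` kills `ker ρ₀`. -/
theorem point_factor {R S O₀ R₀ A : Type*} [CommRing R] [CommRing S] [CommRing O₀] [CommRing R₀]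
    [CommRing A] [IsDomain A] {m : Type*} [Fintype m] [DecidableEq m]
    (ε : S →+* O₀) (f : R →+* Matrix m m S) (π : R →+* R₀) (hπ : Function.Surjective π)
    (ρ₀ : R₀ →+* Matrix m m O₀) (hf : ∀ r, (f r).map ε = ρ₀ (π r))
    (hy : ∀ s, ε s = 0 → ∃ r, π r = 0 ∧ f r = s • (1 : Matrix m m S))
    (x : R₀ →+* A) (hx : ∀ r, f r = 0 → x (π r) = 0) (t : R₀) (ht : ρ₀ t = 0) : x t = 0 := by
  classical
  obtain ⟨t', rfl⟩ := hπ t
  rcases subsingleton_or_nontrivial S with hSS | hSS
  · have h1 := hx 1 (by ext i j; exact Subsingleton.elim _ _)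
    rw [map_one, map_one] at h1
    exact absurd h1 one_ne_zero
  set χ := (f t').charpoly with hχ
  set d := Fintype.card m with hd
  have hmonic : χ.Monic := (f t').charpoly_monic
  have hdeg : χ.natDegree = d := (f t').charpoly_natDegree_eq_dim
  have hcoeff : ∀ i, i < d → ε (χ.coeff i) = 0 := by
    intro i hi
    have h1 : χ.map ε = (X : O₀[X]) ^ d := by
      rw [hχ, ← Matrix.charpoly_map]
      have h2 : (f t').map ε = 0 := by rw [hf, ht]
      have h3 : (ε.mapMatrix (f t')) = (f t').map ε := rfl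
      rw [show (f t').map ε = 0 from h2]
      rw [Matrix.charpoly_zero]
    have h2 := congrArg (fun p => p.coeff i) h1
    simp only [coeff_map, coeff_X_pow] at h2
    rw [h2, if_neg (by omega)]
  have hch : ∀ i : Fin d, ∃ r, π r = 0 ∧ f r = χ.coeff i • (1 : Matrix m m S) :=
    fun i => hy _ (hcoeff i i.2)
  choose r hr1 hr2 using hch
  have h0 : f (t' ^ d + ∑ i : Fin d, r i * t' ^ (i : ℕ)) = 0 := by
    have h1 := Matrix.aeval_self_charpoly (f t')
    rw [← hχ, aeval_eq_sum_range, hdeg, Finset.sum_range_succ] at h1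
    have h2 : χ.coeff d = 1 := by
      rw [← hdeg]; exact hmonic.coeff_natDegree
    rw [h2, one_smul, Finset.sum_range] at h1
    rw [map_add, map_pow, map_sum, add_comm]
    rw [← h1]
    congr 1
    refine Finset.sum_congr rfl fun i _ => ?_
    rw [map_mul, map_pow, hr2, smul_mul_assoc, one_mul]
  have h1 := hx _ h0
  rw [map_add, map_add, map_sum, map_sum] at h1
  have h2 : ∑ i : Fin d, x (π (r i * t' ^ (i : ℕ))) = 0 :=
    Finset.sum_eq_zero fun i _ => by rw [map_mul, hr1, zero_mul, map_zero]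
  rw [h2, add_zero, map_pow, map_pow] at h1
  exact eq_zero_of_pow_eq_zero h1

/-! ### Nakayama type lemmas -/

section Nak

variable {R M : Type*} [CommRing R] [AddCommGroup M] [Module R M]

/-- if `r M ⊆ P M` and `P ⊇ Ann M` is prime then `r ∈ P` (`M` finite). -/
theorem mem_of_smul_le [Module.Finite R M] (P : Ideal R) [hP : P.IsPrime]
    (hann : ∀ r : R, (∀ m : M, r • m = 0) → r ∈ P) (r : R)
    (h : ∀ m : M, r • m ∈ P • (⊤ : Submodule R M)) : r ∈ P := by
  obtain ⟨p, hp1, -, hp2, hp3⟩ :=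
    LinearMap.exists_monic_and_natDegree_eq_and_coeff_mem_pow_and_aeval_eq_zero R
      (algebraMap R (Module.End R M) r) P (by
        rintro _ ⟨m, rfl⟩
        exact h m)
  have h1 : aeval r p ∈ P := by
    refine hann _ fun m => ?_
    have h2 : aeval (algebraMap R (Module.End R M) r) p =
        algebraMap R (Module.End R M) (aeval r p) := by
      rw [aeval_algebraMap_apply]
    rw [h2] at hp3
    exact LinearMap.congr_fun hp3 m
  rw [aeval_eq_sum_range, Finset.sum_range_succ, hp1.coeff_natDegree, one_smul] at h1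
  have h2 : ∑ i ∈ Finset.range p.natDegree, p.coeff i • r ^ i ∈ P := by
    refine Ideal.sum_mem _ fun i hi => ?_
    rw [Finset.mem_range] at hi
    rw [smul_eq_mul]
    refine Ideal.mul_mem_right _ _ ?_
    exact Ideal.pow_le_self (by omega) (hp2 i)
  have h3 : r ^ p.natDegree ∈ P := by
    have := Ideal.sub_mem _ h1 h2
    simpa using this
  exact hP.mem_of_pow_mem _ h3

/-- if `s K ⊆ P K` with `s ∉ P` then `K` is killed by an element outside `P`. -/
theorem exists_smul_eq_zero_of_smul_le [Module.Finite R M] (P : Ideal R) [hP : P.IsPrime] (s : R)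
    (hs : s ∉ P) (h : ∀ m : M, s • m ∈ P • (⊤ : Submodule R M)) :
    ∃ t, t ∉ P ∧ ∀ m : M, t • m = 0 := by
  by_contra hcon
  push Not at hcon
  refine hs (mem_of_smul_le P (fun r hr => ?_) s h)
  by_contra hr'
  obtain ⟨m, hm⟩ := hcon r hr'
  exact hm (hr m)

end Nak

/-! ### level raising -/

/-- The core of the level raising argument in patched form. -/
theorem raise_core {R M M' : Type*} [CommRing R] [AddCommGroup M] [Module R M]
    [AddCommGroup M'] [Module R M'] [Module.Finite R M']
    (ι : (M' × M') →ₗ[R] M) (ι' : M →ₗ[R] (M' × M')) (hsurj : Function.Surjective ι')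
    (a b c d : R) (hΘ : ∀ v : M' × M', ι' (ι v) = (a • v.1 + b • v.2, c • v.1 + d • v.2))
    (P : Ideal R) [hP : P.IsPrime] (hdet : a * d - b * c ∈ P)
    (hann : ∀ r : R, (∀ m : M', r • m = 0) → r ∈ P)
    (s : R) (hs : s ∉ P) (h : ∀ m : M, s • m ∈ LinearMap.range ι) : False := by
  -- every `s • v` is in the image of `Θ`
  have h1 : ∀ v : M' × M', ∃ w : M' × M',
      s • v = (a • w.1 + b • w.2, c • w.1 + d • w.2) := by
    intro v
    obtain ⟨m, rfl⟩ := hsurj v
    obtain ⟨w, hw⟩ := h m
    exact ⟨w, by rw [← map_smul, ← hw, hΘ]⟩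
  have hPM : ∀ (r : R) (m : M'), r ∈ P → r • m ∈ P • (⊤ : Submodule R M') := fun r m hr =>
    Submodule.smul_mem_smul hr trivial
  -- adjugate: all entries times s lie in P
  have key : ∀ (e : R), (∀ m : M', (s * e) • m ∈ P • (⊤ : Submodule R M')) → e ∈ P := by
    intro e he
    exact (hP.mem_or_mem (mem_of_smul_le P hann _ he)).resolve_left hs
  have hd : d ∈ P := by
    refine key d fun m => ?_
    obtain ⟨w, hw⟩ := h1 (m, 0)
    have e1 : s • m = a • w.1 + b • w.2 := congrArg Prod.fst hw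
    have e2 : s • (0 : M') = c • w.1 + d • w.2 := congrArg Prod.snd hw
    have : (s * d) • m = (a * d - b * c) • w.1 := by
      have e3 : (s * d) • m = d • (s • m) - b • (s • (0 : M')) := by
        rw [smul_zero, smul_zero, sub_zero, smul_smul, mul_comm]
      rw [e3, e1, e2]
      module
    rw [this]
    exact hPM _ _ hdet
  have hc : c ∈ P := by
    refine key c fun m => ?_
    obtain ⟨w, hw⟩ := h1 (m, 0)
    have e1 : s • m = a • w.1 + b • w.2 := congrArg Prod.fst hw
    have e2 : s • (0 : M') = c • w.1 + d • w.2 := congrArg Prod.snd hw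
    have : (s * c) • m = (a * d - b * c) • (-w.2) := by
      have e3 : (s * c) • m = c • (s • m) - a • (s • (0 : M')) := by
        rw [smul_zero, smul_zero, sub_zero, smul_smul, mul_comm]
      rw [e3, e1, e2]
      module
    rw [this]
    exact hPM _ _ hdet
  have hb : b ∈ P := by
    refine key b fun m => ?_
    obtain ⟨w, hw⟩ := h1 (0, m)
    have e1 : s • (0 : M') = a • w.1 + b • w.2 := congrArg Prod.fst hw
    have e2 : s • m = c • w.1 + d • w.2 := congrArg Prod.snd hw
    have : (s * b) • m = (a * d - b * c) • (-w.1) := by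
      have e3 : (s * b) • m = b • (s • m) - d • (s • (0 : M')) := by
        rw [smul_zero, smul_zero, sub_zero, smul_smul, mul_comm]
      rw [e3, e1, e2]
      module
    rw [this]
    exact hPM _ _ hdet
  have ha : a ∈ P := by
    refine key a fun m => ?_
    obtain ⟨w, hw⟩ := h1 (0, m)
    have e1 : s • (0 : M') = a • w.1 + b • w.2 := congrArg Prod.fst hw
    have e2 : s • m = c • w.1 + d • w.2 := congrArg Prod.snd hw
    have : (s * a) • m = (a * d - b * c) • w.2 := by
      have e3 : (s * a) • m = a • (s • m) - c • (s • (0 : M')) := by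
        rw [smul_zero, smul_zero, sub_zero, smul_smul, mul_comm]
      rw [e3, e1, e2]
      module
    rw [this]
    exact hPM _ _ hdet
  refine hs (mem_of_smul_le P hann s fun m => ?_)
  obtain ⟨w, hw⟩ := h1 (m, 0)
  have e1 : s • m = a • w.1 + b • w.2 := congrArg Prod.fst hw
  rw [e1]
  exact Submodule.add_mem _ (hPM _ _ ha) (hPM _ _ hb)

/-! ### level lowering (patched Mazur principle) -/

/-- action of a `2 × 2` matrix on `M × M`. -/
def act2 {R M : Type*} [CommRing R] [AddCommGroup M] [Module R M]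
    (N : Matrix (Fin 2) (Fin 2) R) : (M × M) →ₗ[R] (M × M) where
  toFun v := (N 0 0 • v.1 + N 0 1 • v.2, N 1 0 • v.1 + N 1 1 • v.2)
  map_add' v w := by
    ext <;> simp only [Prod.fst_add, Prod.snd_add, smul_add] <;> abel
  map_smul' r v := by
    ext <;> simp only [Prod.smul_fst, Prod.smul_snd, smul_add, RingHom.id_apply] <;>
      simp only [smul_smul, mul_comm]

theorem act2_apply {R M : Type*} [CommRing R] [AddCommGroup M] [Module R M]
    (N : Matrix (Fin 2) (Fin 2) R) (v : M × M) :
    act2 N v = (N 0 0 • v.1 + N 0 1 • v.2, N 1 0 • v.1 + N 1 1 • v.2) := rfl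

theorem act2_mul {R M : Type*} [CommRing R] [AddCommGroup M] [Module R M]
    (N N' : Matrix (Fin 2) (Fin 2) R) (v : M × M) :
    act2 (N * N') v = act2 N (act2 N' v) := by
  ext
  · simp only [act2_apply, Matrix.mul_apply, Fin.sum_univ_two]
    module
  · simp only [act2_apply, Matrix.mul_apply, Fin.sum_univ_two]
    module

theorem act2_smul {R M : Type*} [CommRing R] [AddCommGroup M] [Module R M] (r : R)
    (N : Matrix (Fin 2) (Fin 2) R) (v : M × M) :
    act2 (r • N) v = r • act2 N v := by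
  ext
  · simp only [act2_apply, Matrix.smul_apply, smul_eq_mul, Prod.smul_fst]
    module
  · simp only [act2_apply, Matrix.smul_apply, smul_eq_mul, Prod.smul_snd]
    module

/-- The core of the patched Mazur principle: if `N` acts on `M × M` with `N² = 0` and
`ker N = im N`, then it is impossible that at a prime `P` in the support of `M` we have
`N = n U` with `n ∈ P` regular at `P`. -/
theorem lower_core {R M : Type*} [CommRing R] [IsNoetherianRing R] [AddCommGroup M] [Module R M]
    [Module.Finite R M] (N U : Matrix (Fin 2) (Fin 2) R) (P : Ideal R) [hP : P.IsPrime]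
    (hann : ∀ r : R, (∀ m : M, r • m = 0) → r ∈ P)
    (hN2 : ∀ v : M × M, act2 N (act2 N v) = 0)
    (hex : ∀ v : M × M, act2 N v = 0 → ∃ w, act2 N w = v)
    (n s : R) (hn : n ∈ P) (hs : s ∉ P) (hU : ∀ v : M × M, s • act2 N v = n • act2 U v)
    (hreg : ∀ m : M, n • m = 0 → ∃ t, t ∉ P ∧ t • m = 0) : False := by
  have hreg2 : ∀ v : M × M, n • v = 0 → ∃ t, t ∉ P ∧ t • v = 0 := by
    intro v hv
    obtain ⟨t1, h1, h1'⟩ := hreg v.1 (congrArg Prod.fst hv)
    obtain ⟨t2, h2, h2'⟩ := hreg v.2 (congrArg Prod.snd hv)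
    refine ⟨t1 * t2, fun h => (hP.mem_or_mem h).elim h1 h2, ?_⟩
    ext
    · rw [Prod.smul_fst, mul_comm, mul_smul, h1', smul_zero]; rfl
    · rw [Prod.smul_snd, mul_smul, h2', smul_zero]; rfl
  -- the saturated kernel of `U`
  let K : Submodule R (M × M) :=
    { carrier := {v | ∃ t, t ∉ P ∧ t • act2 U v = 0}
      add_mem' := by
        rintro v w ⟨t, ht, htv⟩ ⟨t', ht', htw⟩
        refine ⟨t * t', fun h => (hP.mem_or_mem h).elim ht ht', ?_⟩
        rw [map_add, smul_add, mul_smul, mul_smul, htw, smul_zero, add_zero, smul_comm, htv,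
          smul_zero]
      zero_mem' := ⟨1, hP.one_notMem, by rw [map_zero, smul_zero]⟩
      smul_mem' := by
        rintro r v ⟨t, ht, htv⟩
        refine ⟨t, ht, ?_⟩
        rw [map_smul, smul_comm, htv, smul_zero] }
  -- K ⊆ sat (n K)
  have hK : ∀ v ∈ K, ∃ t, t ∉ P ∧ ∃ w ∈ K, t • v = n • w := by
    rintro v ⟨t, ht, htv⟩
    have h1 : act2 N (t • s • v) = 0 := by
      rw [map_smul, map_smul, hU, smul_comm, htv, smul_zero]
    obtain ⟨w, hw⟩ := hex _ h1
    have h2 : (s * (t * s)) • v = n • act2 U w := by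
      rw [← hU, hw, mul_smul, mul_smul]
    refine ⟨s * (t * s), fun h => ?_, act2 U w, ?_, h2⟩
    · rcases hP.mem_or_mem h with h | h
      · exact hs h
      · exact (hP.mem_or_mem h).elim ht hs
    · -- U (U w) is killed by something outside P
      have h3 : n • act2 U (act2 U w) = (s * s) • (t • act2 U v) := by
        rw [← map_smul, ← h2, map_smul, mul_smul, mul_smul, mul_smul, smul_comm t s]
      rw [htv, smul_zero] at h3
      obtain ⟨t', ht', ht''⟩ := hreg2 _ h3
      exact ⟨t', ht', ht''⟩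
  -- K is killed by an element outside P
  obtain ⟨t, ht, htK⟩ : ∃ t, t ∉ P ∧ ∀ v ∈ K, t • v = 0 := by
    have hfg : K.FG := IsNoetherian.noetherian K
    obtain ⟨F, hF⟩ := hfg
    have hstep : ∃ s₀, s₀ ∉ P ∧ ∀ v ∈ K, ∃ w ∈ K, s₀ • v = n • w := by
      have : ∀ G : Finset (M × M), (∀ g ∈ G, g ∈ K) → ∃ s₀, s₀ ∉ P ∧
          ∀ v ∈ Submodule.span R (G : Set (M × M)), ∃ w ∈ K, s₀ • v = n • w := by
        classical
        intro G
        induction G using Finset.induction_on with
        | empty =>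
          intro _
          refine ⟨1, hP.one_notMem, fun v hv => ⟨0, K.zero_mem, ?_⟩⟩
          rw [Finset.coe_empty, Submodule.span_empty, Submodule.mem_bot] at hv
          rw [hv, smul_zero, smul_zero]
        | insert g G hg ih =>
          intro hG
          obtain ⟨s₁, hs₁, h1⟩ := ih fun g' hg' => hG g' (Finset.mem_insert_of_mem hg')
          obtain ⟨t, ht, w, hw, htw⟩ := hK g (hG g (Finset.mem_insert_self g G))
          refine ⟨s₁ * t, fun h => (hP.mem_or_mem h).elim hs₁ ht, fun v hv => ?_⟩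
          rw [Finset.coe_insert, Submodule.mem_span_insert] at hv
          obtain ⟨a, z, hz, rfl⟩ := hv
          obtain ⟨w', hw', hzw⟩ := h1 z hz
          refine ⟨(s₁ * a) • w + t • w', K.add_mem (K.smul_mem _ hw) (K.smul_mem _ hw'), ?_⟩
          calc (s₁ * t) • (a • g + z) = (s₁ * a) • (t • g) + t • (s₁ • z) := by
                simp only [smul_add, smul_smul]; ring_nf
            _ = n • ((s₁ * a) • w + t • w') := by
                rw [htw, hzw]; simp only [smul_add, smul_smul]; ring_nf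
      obtain ⟨s₀, hs₀, h0⟩ := this F fun g hg => by
        rw [← hF]; exact Submodule.subset_span hg
      exact ⟨s₀, hs₀, fun v hv => h0 v (by rw [hF]; exact hv)⟩
    obtain ⟨s₀, hs₀, h0⟩ := hstep
    have : Module.Finite R K := Module.Finite.iff_fg.2 (IsNoetherian.noetherian K)
    obtain ⟨t, ht, htK⟩ := exists_smul_eq_zero_of_smul_le (M := K) P s₀ hs₀ (fun v => by
      obtain ⟨w, hw, h⟩ := h0 v.1 v.2
      have : s₀ • v = n • (⟨w, hw⟩ : K) := Subtype.ext h
      rw [this]
      exact Submodule.smul_mem_smul hn trivial)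
    exact ⟨t, ht, fun v hv => congrArg Subtype.val (htK ⟨v, hv⟩)⟩
  have hUU : ∀ v : M × M, act2 U v ∈ K := by
    intro v
    have h1 : n • (n • act2 U (act2 U v)) = 0 := by
      have h2 : (s * s) • act2 N (act2 N v) = n • (n • act2 U (act2 U v)) := by
        calc (s * s) • act2 N (act2 N v) = s • act2 N (s • act2 N v) := by
              rw [mul_smul, map_smul]
          _ = s • act2 N (n • act2 U v) := by rw [hU v]
          _ = n • (s • act2 N (act2 U v)) := by rw [map_smul, smul_comm]
          _ = n • (n • act2 U (act2 U v)) := by rw [hU (act2 U v)]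
      rw [← h2, hN2, smul_zero]
    obtain ⟨t1, ht1, h3⟩ := hreg2 _ h1
    rw [smul_comm] at h3
    obtain ⟨t2, ht2, h4⟩ := hreg2 _ h3
    exact ⟨t2 * t1, fun h => (hP.mem_or_mem h).elim ht2 ht1, by rw [mul_smul]; exact h4⟩
  have htt : t * t ∈ P := by
    refine hann _ fun m => ?_
    have h1 : ((m, 0) : M × M) ∈ K := ⟨t, ht, htK _ (hUU _)⟩
    have h2 := congrArg Prod.fst (htK _ h1)
    have h3 : t • m = 0 := h2
    rw [mul_smul, h3, smul_zero]
  exact (hP.mem_or_mem htt).elim ht ht

/-- The matrix computation: if `X N = w N`, `N X = 0`, `tr X = w`, `det X = 0` with `w ∉ P`, then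
up to an element outside `P` the matrix `N` is `n U` with `n` an entry of `N`. All identities are
understood modulo an ideal `J ≤ P` (e.g. the annihilator of `M`). -/
theorem exists_factor {R : Type*} [CommRing R] (J P : Ideal R) [hP : P.IsPrime] (hJ : J ≤ P)
    (X N : Matrix (Fin 2) (Fin 2) R) (w : R) (hw : w ∉ P)
    (h1 : ∀ i j, (X * N - w • N) i j ∈ J) (h2 : ∀ i j, (N * X) i j ∈ J)
    (htr : X 0 0 + X 1 1 - w ∈ J) (hdet : X 0 0 * X 1 1 - X 0 1 * X 1 0 ∈ J) :
    ∃ (s : R) (U : Matrix (Fin 2) (Fin 2) R) (i j : Fin 2), s ∉ P ∧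
      ∀ i' j', s * N i' j' - N i j * U i' j' ∈ J := by
  -- work in the quotient ring R / J
  have e11 := h1 0 0
  have e12 := h1 0 1
  have e21 := h1 1 0
  have e22 := h1 1 1
  have g11 := h2 0 0
  have g12 := h2 0 1
  have g21 := h2 1 0
  have g22 := h2 1 1
  simp only [Matrix.sub_apply, Matrix.smul_apply, Matrix.mul_apply, Fin.sum_univ_two,
    smul_eq_mul] at e11 e12 e21 e22 g11 g12 g21 g22
  by_cases hX : X 0 0 ∈ P
  · -- then X 1 1 ∉ P
    have hX' : X 1 1 ∉ P := by
      intro h
      apply hw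
      have := Ideal.sub_mem _ (Ideal.add_mem _ hX h) (hJ htr)
      simpa using this
    -- use n = N 1 0
    refine ⟨w * (X 1 1 * X 1 1), w • !![X 0 1 * X 1 1, -(X 0 1 * X 0 1);
      X 1 1 * X 1 1, -(X 0 1 * X 1 1)], 1, 0, ?_, ?_⟩
    · intro h
      rcases hP.mem_or_mem h with h | h
      · exact hw h
      · exact (hP.mem_or_mem h).elim hX' hX'
    · -- row relation: w X11 N0j = w X01 N1j ; column relation: N i1 X11 = - N i0 X01
      have r0 : w * (X 1 1 * N 0 0) - w * (X 0 1 * N 1 0) ∈ J := by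
        have : w * (X 1 1 * N 0 0) - w * (X 0 1 * N 1 0) =
          -(X 1 1) * (X 0 0 * N 0 0 + X 0 1 * N 1 0 - w * N 0 0)
            + X 0 1 * (X 1 0 * N 0 0 + X 1 1 * N 1 0 - w * N 1 0)
            + N 0 0 * (X 0 0 * X 1 1 - X 0 1 * X 1 0) := by ring
        rw [this]
        exact Ideal.add_mem _ (Ideal.add_mem _ (Ideal.mul_mem_left _ _ e11)
          (Ideal.mul_mem_left _ _ e21)) (Ideal.mul_mem_left _ _ hdet)
      have r1 : w * (X 1 1 * N 0 1) - w * (X 0 1 * N 1 1) ∈ J := by
        have : w * (X 1 1 * N 0 1) - w * (X 0 1 * N 1 1) =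
          -(X 1 1) * (X 0 0 * N 0 1 + X 0 1 * N 1 1 - w * N 0 1)
            + X 0 1 * (X 1 0 * N 0 1 + X 1 1 * N 1 1 - w * N 1 1)
            + N 0 1 * (X 0 0 * X 1 1 - X 0 1 * X 1 0) := by ring
        rw [this]
        exact Ideal.add_mem _ (Ideal.add_mem _ (Ideal.mul_mem_left _ _ e12)
          (Ideal.mul_mem_left _ _ e22)) (Ideal.mul_mem_left _ _ hdet)
      intro i' j'
      fin_cases i' <;> fin_cases j'
      · simp only [Fin.mk_zero, Fin.isValue, Fin.zero_eta, Fin.mk_one, Matrix.smul_apply, Matrix.of_apply, Matrix.cons_val', Matrix.cons_val_zero, Matrix.cons_val_one, Matrix.cons_val_fin_one, smul_eq_mul]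
        have : w * (X 1 1 * X 1 1) * N 0 0 - N 1 0 * (w * (X 0 1 * X 1 1)) =
          X 1 1 * (w * (X 1 1 * N 0 0) - w * (X 0 1 * N 1 0)) := by ring
        rw [this]
        exact Ideal.mul_mem_left _ _ r0
      · simp only [Fin.mk_zero, Fin.isValue, Fin.zero_eta, Fin.mk_one, Matrix.smul_apply, Matrix.of_apply, Matrix.cons_val', Matrix.cons_val_zero, Matrix.cons_val_one, Matrix.cons_val_fin_one, smul_eq_mul]
        have : w * (X 1 1 * X 1 1) * N 0 1 - N 1 0 * (w * -(X 0 1 * X 0 1)) =
          X 1 1 * (w * (X 1 1 * N 0 1) - w * (X 0 1 * N 1 1))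
            + w * X 0 1 * (N 1 0 * X 0 1 + N 1 1 * X 1 1) := by ring
        rw [this]
        exact Ideal.add_mem _ (Ideal.mul_mem_left _ _ r1) (Ideal.mul_mem_left _ _ g22)
      · simp only [Fin.mk_zero, Fin.isValue, Fin.zero_eta, Fin.mk_one, Matrix.smul_apply, Matrix.of_apply, Matrix.cons_val', Matrix.cons_val_zero, Matrix.cons_val_one, Matrix.cons_val_fin_one, smul_eq_mul]
        have : w * (X 1 1 * X 1 1) * N 1 0 - N 1 0 * (w * (X 1 1 * X 1 1)) = 0 := by ring
        rw [this]
        exact J.zero_mem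
      · simp only [Fin.mk_zero, Fin.isValue, Fin.zero_eta, Fin.mk_one, Matrix.smul_apply, Matrix.of_apply, Matrix.cons_val', Matrix.cons_val_zero, Matrix.cons_val_one, Matrix.cons_val_fin_one, smul_eq_mul]
        have : w * (X 1 1 * X 1 1) * N 1 1 - N 1 0 * (w * -(X 0 1 * X 1 1)) =
          w * X 1 1 * (N 1 0 * X 0 1 + N 1 1 * X 1 1) := by ring
        rw [this]
        exact Ideal.mul_mem_left _ _ g22
  · -- use n = N 0 1
    refine ⟨w * (X 0 0 * X 0 0), w • !![-(X 1 0 * X 0 0), X 0 0 * X 0 0;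
      -(X 1 0 * X 1 0), X 1 0 * X 0 0], 0, 1, ?_, ?_⟩
    · intro h
      rcases hP.mem_or_mem h with h | h
      · exact hw h
      · exact (hP.mem_or_mem h).elim hX hX
    · have r0 : w * (X 0 0 * N 1 0) - w * (X 1 0 * N 0 0) ∈ J := by
        have : w * (X 0 0 * N 1 0) - w * (X 1 0 * N 0 0) =
          -(X 0 0) * (X 1 0 * N 0 0 + X 1 1 * N 1 0 - w * N 1 0)
            + X 1 0 * (X 0 0 * N 0 0 + X 0 1 * N 1 0 - w * N 0 0)
            + N 1 0 * (X 0 0 * X 1 1 - X 0 1 * X 1 0) := by ring
        rw [this]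
        exact Ideal.add_mem _ (Ideal.add_mem _ (Ideal.mul_mem_left _ _ e21)
          (Ideal.mul_mem_left _ _ e11)) (Ideal.mul_mem_left _ _ hdet)
      have r1 : w * (X 0 0 * N 1 1) - w * (X 1 0 * N 0 1) ∈ J := by
        have : w * (X 0 0 * N 1 1) - w * (X 1 0 * N 0 1) =
          -(X 0 0) * (X 1 0 * N 0 1 + X 1 1 * N 1 1 - w * N 1 1)
            + X 1 0 * (X 0 0 * N 0 1 + X 0 1 * N 1 1 - w * N 0 1)
            + N 1 1 * (X 0 0 * X 1 1 - X 0 1 * X 1 0) := by ring
        rw [this]
        exact Ideal.add_mem _ (Ideal.add_mem _ (Ideal.mul_mem_left _ _ e22)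
          (Ideal.mul_mem_left _ _ e12)) (Ideal.mul_mem_left _ _ hdet)
      intro i' j'
      fin_cases i' <;> fin_cases j'
      · simp only [Fin.mk_zero, Fin.isValue, Fin.zero_eta, Fin.mk_one, Matrix.smul_apply, Matrix.of_apply, Matrix.cons_val', Matrix.cons_val_zero, Matrix.cons_val_one, Matrix.cons_val_fin_one, smul_eq_mul]
        have : w * (X 0 0 * X 0 0) * N 0 0 - N 0 1 * (w * -(X 1 0 * X 0 0)) =
          w * X 0 0 * (N 0 0 * X 0 0 + N 0 1 * X 1 0) := by ring
        rw [this]
        exact Ideal.mul_mem_left _ _ g11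
      · simp only [Fin.mk_zero, Fin.isValue, Fin.zero_eta, Fin.mk_one, Matrix.smul_apply, Matrix.of_apply, Matrix.cons_val', Matrix.cons_val_zero, Matrix.cons_val_one, Matrix.cons_val_fin_one, smul_eq_mul]
        have : w * (X 0 0 * X 0 0) * N 0 1 - N 0 1 * (w * (X 0 0 * X 0 0)) = 0 := by ring
        rw [this]
        exact J.zero_mem
      · simp only [Fin.mk_zero, Fin.isValue, Fin.zero_eta, Fin.mk_one, Matrix.smul_apply, Matrix.of_apply, Matrix.cons_val', Matrix.cons_val_zero, Matrix.cons_val_one, Matrix.cons_val_fin_one, smul_eq_mul]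
        have : w * (X 0 0 * X 0 0) * N 1 0 - N 0 1 * (w * -(X 1 0 * X 1 0)) =
          X 0 0 * (w * (X 0 0 * N 1 0) - w * (X 1 0 * N 0 0))
            + w * X 1 0 * (N 0 0 * X 0 0 + N 0 1 * X 1 0) := by ring
        rw [this]
        exact Ideal.add_mem _ (Ideal.mul_mem_left _ _ r0) (Ideal.mul_mem_left _ _ g11)
      · simp only [Fin.mk_zero, Fin.isValue, Fin.zero_eta, Fin.mk_one, Matrix.smul_apply, Matrix.of_apply, Matrix.cons_val', Matrix.cons_val_zero, Matrix.cons_val_one, Matrix.cons_val_fin_one, smul_eq_mul]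
        have : w * (X 0 0 * X 0 0) * N 1 1 - N 0 1 * (w * (X 1 0 * X 0 0)) =
          X 0 0 * (w * (X 0 0 * N 1 1) - w * (X 1 0 * N 0 1)) := by ring
        rw [this]
        exact Ideal.mul_mem_left _ _ r1

end Fermat.Agent.RT1
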