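import Mathlib

/-!
# Lifting matrix identities from the residue field (RT1)
-/

set_option autoImplicit false
set_option linter.unusedSectionVars false
set_option linter.unusedVariables false

namespace Fermat.Agent.RT1

open IsLocalRing

variable {S k : Type*} [CommRing S] [IsLocalRing S] [Field k] (κ : S →+* k)
  (hκ : Function.Surjective κ)

include hκ in
theorem isUnit_iff_residue (s : S) : IsUnit s ↔ κ s ≠ 0 := by
  constructor
  · intro h
    exact (h.map κ).ne_zero
  · intro h
    by_contra hs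
    have h1 : s ∈ maximalIdeal S := hs
    have h2 : RingHom.ker κ = maximalIdeal S :=
      IsLocalRing.eq_maximalIdeal (RingHom.ker_isMaximal_of_surjective κ hκ)
    rw [← h2] at h1
    exact h h1

include hκ in
theorem ker_eq_maximalIdeal : RingHom.ker κ = maximalIdeal S :=
  IsLocalRing.eq_maximalIdeal (RingHom.ker_isMaximal_of_surjective κ hκ)

include hκ in
theorem exists_lift_matrix {m m' : Type*} (M : Matrix m m' k) :
    ∃ M' : Matrix m m' S, M'.map κ = M := by
  choose g hg using hκ
  exact ⟨M.map g, by ext i j; simp [hg]⟩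

include hκ in
theorem isUnit_of_map_eq_one {m : Type*} [Fintype m] [DecidableEq m] (E : Matrix m m S)
    (h : E.map κ = 1) : IsUnit E := by
  rw [Matrix.isUnit_iff_isUnit_det, isUnit_iff_residue κ hκ]
  have : κ E.det = (E.map κ).det := by
    rw [RingHom.map_det]; rfl
  rw [this, h, Matrix.det_one]
  exact one_ne_zero

/-- a matrix over a field acting injectively has a left inverse -/
theorem exists_left_inverse_of_injective {m m' : Type*} [Fintype m] [DecidableEq m] [Fintype m']
    [DecidableEq m'] (M : Matrix m m' k) (h : Function.Injective M.mulVec) :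
    ∃ N : Matrix m' m k, N * M = 1 := by
  obtain ⟨g, hg⟩ := LinearMap.exists_leftInverse_of_injective (Matrix.toLin' M)
    (LinearMap.ker_eq_bot.2 h)
  refine ⟨LinearMap.toMatrix' g, ?_⟩
  have h1 := congrArg LinearMap.toMatrix' hg
  rw [LinearMap.toMatrix'_comp, LinearMap.toMatrix'_toLin', LinearMap.toMatrix'_id] at h1
  exact h1

theorem exists_right_inverse_of_surjective {m m' : Type*} [Fintype m] [DecidableEq m] [Fintype m']
    [DecidableEq m'] (M : Matrix m m' k) (h : Function.Surjective M.mulVec) :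
    ∃ N : Matrix m' m k, M * N = 1 := by
  obtain ⟨g, hg⟩ := LinearMap.exists_rightInverse_of_surjective (Matrix.toLin' M)
    (LinearMap.range_eq_top.2 h)
  refine ⟨LinearMap.toMatrix' g, ?_⟩
  have h1 := congrArg LinearMap.toMatrix' hg
  rw [LinearMap.toMatrix'_comp, LinearMap.toMatrix'_toLin', LinearMap.toMatrix'_id] at h1
  exact h1

include hκ in
theorem exists_left_inverse_lift {m m' : Type*} [Fintype m] [DecidableEq m] [Fintype m']
    [DecidableEq m'] (M : Matrix m m' S) (h : Function.Injective (M.map κ).mulVec) :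
    ∃ N : Matrix m' m S, N * M = 1 := by
  obtain ⟨N, hN⟩ := exists_left_inverse_of_injective _ h
  obtain ⟨N', rfl⟩ := exists_lift_matrix κ hκ N
  have h1 : (N' * M).map κ = 1 := by rw [Matrix.map_mul, hN]
  obtain ⟨u, hu⟩ := isUnit_of_map_eq_one κ hκ _ h1
  refine ⟨(↑u⁻¹ : Matrix m' m' S) * N', ?_⟩
  rw [Matrix.mul_assoc, ← hu]
  exact u.inv_mul

include hκ in
theorem exists_right_inverse_lift {m m' : Type*} [Fintype m] [DecidableEq m] [Fintype m']
    [DecidableEq m'] (M : Matrix m m' S) (h : Function.Surjective (M.map κ).mulVec) :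
    ∃ N : Matrix m' m S, M * N = 1 := by
  obtain ⟨N, hN⟩ := exists_right_inverse_of_surjective _ h
  obtain ⟨N', rfl⟩ := exists_lift_matrix κ hκ N
  have h1 : (M * N').map κ = 1 := by rw [Matrix.map_mul, hN]
  obtain ⟨u, hu⟩ := isUnit_of_map_eq_one κ hκ _ h1
  refine ⟨N' * (↑u⁻¹ : Matrix m m S), ?_⟩
  rw [← Matrix.mul_assoc, ← hu]
  exact u.mul_inv

/-- contracting homotopy over a field -/
theorem exists_homotopy {V : Type*} [AddCommGroup V] [Module k V] (N : V →ₗ[k] V)
    (hN : N ∘ₗ N = 0) (hex : ∀ v, N v = 0 → ∃ w, N w = v) :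
    ∃ H : V →ₗ[k] V, N ∘ₗ H + H ∘ₗ N = LinearMap.id := by
  obtain ⟨s, hs⟩ := LinearMap.exists_rightInverse_of_surjective N.rangeRestrict
    (LinearMap.range_eq_top.2 N.surjective_rangeRestrict)
  obtain ⟨g, hg⟩ := LinearMap.exists_extend s
  have hgN : ∀ v, N (g (N v)) = N v := by
    intro v
    have h1 : g (N v) = s ⟨N v, LinearMap.mem_range_self N v⟩ :=
      LinearMap.congr_fun hg ⟨N v, LinearMap.mem_range_self N v⟩
    rw [h1]
    exact congrArg Subtype.val (LinearMap.congr_fun hs ⟨N v, LinearMap.mem_range_self N v⟩)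
  have hNN : ∀ v, N (N v) = 0 := fun v => LinearMap.congr_fun hN v
  refine ⟨(LinearMap.id - N ∘ₗ g) ∘ₗ g ∘ₗ N ∘ₗ g, ?_⟩
  ext v
  simp only [LinearMap.add_apply, LinearMap.comp_apply, LinearMap.sub_apply, LinearMap.id_apply,
    map_sub, hNN, hgN, sub_zero]
  obtain ⟨w, hw⟩ := hex (v - g (N v)) (by rw [map_sub, hgN, sub_self])
  have h2 : N (g (v - g (N v))) = v - g (N v) := by rw [← hw, hgN]
  rw [map_sub, map_sub] at h2
  have h3 : N (g v) + (g (N v) - N (g (g (N v)))) = v := by
    have : N (g v) - N (g (g (N v))) = v - g (N v) := h2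
    rw [add_sub_left_comm, this]
    abel
  exact h3

include hκ in
/-- exactness of `N` (with `N² = 0`) lifts from the residue field. -/
theorem exact_lift {m : Type*} [Fintype m] [DecidableEq m] (N : Matrix m m S) (hN : N * N = 0)
    (hex : ∀ v : m → k, (N.map κ).mulVec v = 0 → ∃ w, (N.map κ).mulVec w = v) :
    ∀ v : m → S, N.mulVec v = 0 → ∃ w, N.mulVec w = v := by
  obtain ⟨H, hH⟩ := exists_homotopy (Matrix.toLin' (N.map κ)) (by
    rw [← Matrix.toLin'_mul, ← Matrix.map_mul, hN, Matrix.map_zero κ (map_zero κ), map_zero])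
    (fun v hv => hex v hv)
  obtain ⟨H', hH'⟩ := exists_lift_matrix κ hκ (LinearMap.toMatrix' H)
  have h1 : (N * H' + H' * N).map κ = 1 := by
    rw [Matrix.map_add κ (map_add κ), Matrix.map_mul, Matrix.map_mul, hH']
    have h2 := congrArg LinearMap.toMatrix' hH
    rw [map_add, LinearMap.toMatrix'_comp, LinearMap.toMatrix'_comp, LinearMap.toMatrix'_toLin',
      LinearMap.toMatrix'_id] at h2
    exact h2
  obtain ⟨u, hu⟩ := isUnit_of_map_eq_one κ hκ _ h1
  have hcomm : N * (u : Matrix m m S) = (u : Matrix m m S) * N := by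
    rw [hu, mul_add, add_mul, ← mul_assoc, hN, zero_mul, mul_assoc H', hN, mul_zero, zero_add,
      add_zero, mul_assoc]
  have hcomm' : N * (↑u⁻¹ : Matrix m m S) = (↑u⁻¹ : Matrix m m S) * N := by
    have : Commute N (u : Matrix m m S) := hcomm
    exact this.units_inv_right
  intro v hv
  refine ⟨(↑u⁻¹ : Matrix m m S).mulVec (H'.mulVec v), ?_⟩
  have h3 : (u : Matrix m m S).mulVec v = N.mulVec (H'.mulVec v) := by
    rw [hu, Matrix.add_mulVec, ← Matrix.mulVec_mulVec, ← Matrix.mulVec_mulVec, hv,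
      Matrix.mulVec_zero, add_zero]
  rw [Matrix.mulVec_mulVec, hcomm', ← Matrix.mulVec_mulVec, ← h3, Matrix.mulVec_mulVec,
    u.inv_mul, Matrix.one_mulVec]

end Fermat.Agent.RT1
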