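import Fermat.Agent.RT1.Patch
import Fermat.Agent.RT1.Dim
import Fermat.Agent.RT1.Core
import Fermat.Agent.RT1.Lift

/-!
# Patching: main theorems (RT1)

* `exists_supported`    : some component is in the support
* `raise_component`     : level raising in patched form
* `lower_component`     : level lowering in patched form (patched Mazur principle)
* `point_kills`         : points on supported components are modular
-/

set_option autoImplicit false
set_option linter.unusedSectionVars false
set_option linter.unusedVariables false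

namespace Fermat.Agent.RT1

open Filter IsLocalRing

variable {S : Type*} [CommRing S] [IsDomain S] [IsLocalRing S] [IsNoetherianRing S]
  [IsAdicComplete (maximalIdeal S) S] [Finite (ResidueField S)]
  {B : ℕ → Type*} [∀ n, CommRing (B n)] (L : Levels S B)
  {R : Type*} [CommRing R] [IsLocalRing R] [IsNoetherianRing R]
  [IsAdicComplete (maximalIdeal R) R] [Finite (ResidueField R)]

/-- A finite family of components of `Spec R`, all of dimension `≤ δ ≤ dim S`. -/
structure Components (S R : Type*) [CommRing S] [CommRing R] (C : Type*) where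
  q : C → Ideal R
  prime : ∀ c, (q c).IsPrime
  δ : ℕ
  dim_le : ∀ c, ringKrullDim (R ⧸ q c) ≤ δ
  le_dim : (δ : WithBot ℕ∞) ≤ ringKrullDim S

/-- the representation on `m → S` as endomorphisms. -/
noncomputable def toEnd {m : Type*} [Fintype m] [DecidableEq m] (f : R →+* Matrix m m S) :
    R →+* Module.End S (m → S) :=
  (Matrix.toLinAlgEquiv' : Matrix m m S ≃ₐ[S] ((m → S) →ₗ[S] (m → S))).toRingEquiv.toRingHom.comp f

omit [IsDomain S] [IsLocalRing S] [IsNoetherianRing S] [IsAdicComplete (maximalIdeal S) S]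
  [Finite (ResidueField S)] [IsLocalRing R] [IsNoetherianRing R]
  [IsAdicComplete (maximalIdeal R) R] [Finite (ResidueField R)] in
theorem toEnd_apply {m : Type*} [Fintype m] [DecidableEq m] (f : R →+* Matrix m m S) (r : R)
    (v : m → S) : toEnd f r v = (f r).mulVec v := rfl

omit [IsDomain S] [IsLocalRing S] [IsNoetherianRing S] [IsAdicComplete (maximalIdeal S) S]
  [Finite (ResidueField S)] [IsLocalRing R] [IsNoetherianRing R]
  [IsAdicComplete (maximalIdeal R) R] [Finite (ResidueField R)] in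
theorem ker_toEnd {m : Type*} [Fintype m] [DecidableEq m] (f : R →+* Matrix m m S) :
    RingHom.ker (toEnd f) = RingHom.ker f := by
  ext r
  rw [RingHom.mem_ker, RingHom.mem_ker]
  constructor
  · intro h
    exact (Matrix.toLinAlgEquiv' : Matrix m m S ≃ₐ[S] ((m → S) →ₗ[S] (m → S))).injective
      (by rw [map_zero]; exact h)
  · intro h
    show (Matrix.toLinAlgEquiv' : Matrix m m S ≃ₐ[S] ((m → S) →ₗ[S] (m → S))) (f r) = 0
    rw [h, map_zero]

theorem smul_eq_zero_pi {S : Type*} [CommRing S] [IsDomain S] {m : Type*} (s : S) (x : m → S)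
    (h : s • x = 0) : s = 0 ∨ x = 0 := by
  by_cases hs : s = 0
  · exact Or.inl hs
  · right
    funext i
    have := congrFun h i
    rw [Pi.smul_apply, smul_eq_mul, Pi.zero_apply] at this
    exact (mul_eq_zero.1 this).resolve_left hs

/-- scalars are realized in the limit -/
theorem exists_scalar {m : Type*} [Fintype m] [DecidableEq m] (ρ : ∀ n, R →+* Matrix m m (B n))
    (hS : ∀ n s, ∃ r, ρ n r = L.q n s • (1 : Matrix m m (B n))) (s : S) :
    ∃ r, L.rho ρ r = s • (1 : Matrix m m S) := by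
  choose r hr using fun n => hS n s
  refine ⟨ulim r, ?_⟩
  rw [L.rho_ulim]
  simp only [hr]
  exact L.mat_smul_one s

/-- scalars in the augmentation ideal are realized by `ker π` in the limit. -/
theorem exists_scalar_ker {m : Type*} [Fintype m] [DecidableEq m]
    {R₀ : Type*} [CommRing R₀] [IsLocalRing R₀] [IsNoetherianRing R₀]
    [IsAdicComplete (maximalIdeal R₀) R₀] [Finite (ResidueField R₀)]
    (ρ : ∀ n, R →+* Matrix m m (B n)) (π : ℕ → R →+* R₀) (s : S)
    (hS : ∀ n, ∃ r, π n r = 0 ∧ ρ n r = L.q n s • (1 : Matrix m m (B n))) :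
    ∃ r, piInf π r = 0 ∧ L.rho ρ r = s • (1 : Matrix m m S) := by
  choose r hr0 hr using hS
  refine ⟨ulim r, ?_, ?_⟩
  · rw [piInf_ulim]
    simp only [hr0]
    exact ulim_const 0
  · rw [L.rho_ulim]
    simp only [hr]
    exact L.mat_smul_one s

section Cover

variable {C : Type*} [Finite C] (K : Components S R C)
  {m : Type*} [Fintype m] [DecidableEq m] (ρ : ∀ n, R →+* Matrix m m (B n))

/-- elements killing all levels kill the limit -/
theorem rho_eq_zero_of_forall {r : R} (h : ∀ n, ρ n r = 0) : L.rho ρ r = 0 := by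
  rw [L.rho_apply]
  simp only [h]
  ext i j
  rw [L.mat_apply]
  exact map_zero L.psi

/-- cover from equations -/
theorem cover_of_equations (E : Set R) (hE : ∀ e ∈ E, ∀ n, ρ n e = 0)
    (h : ∀ P : Ideal R, P.IsPrime → E ⊆ P → ∃ c, K.q c ≤ P) (P : Ideal R) (hP : P.IsPrime)
    (hf : RingHom.ker (L.rho ρ) ≤ P) : ∃ c, K.q c ≤ P :=
  h P hP fun e he => hf ((RingHom.mem_ker).2 (rho_eq_zero_of_forall L ρ (hE e he)))

theorem cover_limit (hcov : ∀ r, (∀ c, r ∈ K.q c) → ∀ n, ρ n r = 0)
    (P : Ideal R) (hP : P.IsPrime) (hf : RingHom.ker (L.rho ρ) ≤ P) :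
    ∃ c, K.q c ≤ P := by
  refine cover_of_iInf K.q (toEnd (L.rho ρ)) (fun r hr => ?_) P hP (by rwa [ker_toEnd])
  have h1 : L.rho ρ r = 0 := by
    rw [L.rho_apply]
    simp only [hcov r hr]
    ext i j
    rw [L.mat_apply]
    exact map_zero L.psi
  have : r ∈ RingHom.ker (toEnd (L.rho ρ)) := by rw [ker_toEnd]; exact h1
  exact this

end Cover

section Support

variable {C : Type*} [Finite C] (K : Components S R C)
  {m : Type*} [Fintype m] [DecidableEq m] (ρ : ∀ n, R →+* Matrix m m (B n))
  (hS : ∀ n s, ∃ r, ρ n r = L.q n s • (1 : Matrix m m (B n)))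
  (hcov : ∀ P : Ideal R, P.IsPrime → RingHom.ker (L.rho ρ) ≤ P → ∃ c, K.q c ≤ P)

include hS in
theorem hS_toEnd (s : S) : ∃ r, toEnd (L.rho ρ) r = algebraMap S (Module.End S (m → S)) s := by
  obtain ⟨r, hr⟩ := exists_scalar L ρ hS s
  refine ⟨r, ?_⟩
  refine LinearMap.ext fun v => ?_
  rw [toEnd_apply, hr, Module.algebraMap_end_apply, Matrix.smul_mulVec, Matrix.one_mulVec]

include hS hcov in
/-- every prime containing `ker ρ_∞` contains a component containing `ker ρ_∞`. -/
theorem exists_supported_le (P : Ideal R) (hP : P.IsPrime) (hf : RingHom.ker (L.rho ρ) ≤ P) :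
    ∃ c, RingHom.ker (L.rho ρ) ≤ K.q c ∧ K.q c ≤ P := by
  have h := exists_component_le (M := m → S) K.q K.prime K.δ K.dim_le K.le_dim
    smul_eq_zero_pi (toEnd (L.rho ρ)) (hS_toEnd L ρ hS)
    (fun P hP hf => hcov P hP (by rwa [ker_toEnd] at hf)) P hP
    (by rwa [ker_toEnd])
  simpa only [ker_toEnd] using h

include hS hcov in
/-- some component is in the support. -/
theorem exists_supported [Nonempty m] : ∃ c, RingHom.ker (L.rho ρ) ≤ K.q c := by
  have h := exists_component (M := m → S) K.q K.prime K.δ K.dim_le K.le_dim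
    smul_eq_zero_pi (toEnd (L.rho ρ)) (hS_toEnd L ρ hS)
    (fun P hP hf => hcov P hP (by rwa [ker_toEnd] at hf))
  simpa only [ker_toEnd] using h

end Support

section Reduction

variable {k : Type*} [Field k] (κ : S →+* k) (hκ : Function.Surjective κ)
  (κn : ∀ n, B n →+* k) (hκn : ∀ n s, κn n (L.q n s) = κ s)

include hκ hκn in
theorem eventually_map_eq {m m' : Type*} [Finite m] [Finite m'] (M : ∀ n, Matrix m m' (B n)) :
    ∀ᶠ n in (UF : Filter ℕ), (L.mat M).map κ = (M n).map (κn n) := by
  have h1 : ∀ i j, ∀ᶠ n in (UF : Filter ℕ), κ (L.mat M i j) = κn n (M n i j) := by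
    intro i j
    filter_upwards [L.psi_spec (fun n => M n i j) 1] with n hn
    have h2 := hn _ (L.q_lift (fun n => M n i j) n)
    rw [pow_one, ← ker_eq_maximalIdeal κ hκ, RingHom.mem_ker, map_sub, sub_eq_zero, ← hκn n,
      L.q_lift] at h2
    rw [L.mat_apply]
    exact h2.symm
  have h2 : ∀ᶠ n in (UF : Filter ℕ), ∀ i j, κ (L.mat M i j) = κn n (M n i j) := by
    rw [eventually_all]
    intro i
    rw [eventually_all]
    exact fun j => h1 i j
  exact h2.mono fun n hn => by
    ext i j
    exact hn i j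

end Reduction

section Points

/-- Points on supported components factor through the Hecke algebra: if `x : R₀ → A` (a domain)
is such that `x ∘ π n` kills the component `q c` for all `n` and `q c` is in the support,
then `x` kills `ker ρ₀`. -/
theorem point_kills {m : Type*} [Fintype m] [DecidableEq m]
    {R₀ : Type*} [CommRing R₀] [IsLocalRing R₀] [IsNoetherianRing R₀]
    [IsAdicComplete (maximalIdeal R₀) R₀] [Finite (ResidueField R₀)]
    {O₀ : Type*} [CommRing O₀] [IsLocalRing O₀] [IsNoetherianRing O₀] [Finite (ResidueField O₀)]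
    (ε : S →+* O₀) (εn : ∀ n, B n →+* O₀) (hε : ∀ n s, εn n (L.q n s) = ε s)
    (ρ : ∀ n, R →+* Matrix m m (B n)) (π : ℕ → R →+* R₀) (ρ₀ : R₀ →+* Matrix m m O₀)
    (hπ : ∀ n, Function.Surjective (π n))
    (hρ : ∀ n r, (ρ n r).map (εn n) = ρ₀ (π n r))
    (hy : ∀ n s, ε s = 0 → ∃ r, π n r = 0 ∧ ρ n r = L.q n s • (1 : Matrix m m (B n)))
    {A : Type*} [CommRing A] [IsDomain A] (x : R₀ →+* A) (q : Ideal R)
    (hq : RingHom.ker (L.rho ρ) ≤ q) (hx : ∀ n r, r ∈ q → x (π n r) = 0)
    (t : R₀) (ht : ρ₀ t = 0) : x t = 0 := by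
  refine point_factor ε (L.rho ρ) (piInf π) (piInf_surjective π hπ) ρ₀
    (L.rho_map ε εn hε ρ π ρ₀ hρ)
    (fun s hs => exists_scalar_ker L ρ π s fun n => hy n s hs) x (fun r hr => ?_) t ht
  have h1 : r ∈ q := hq hr
  have h2 : piInf π r ∈ RingHom.ker x := piInf_mem_of_forall π _ fun n => hx n r h1
  exact h2

end Points

section Raise

variable {k : Type*} [Field k] (κ : S →+* k) (hκ : Function.Surjective κ)
  (κn : ∀ n, B n →+* k) (hκn : ∀ n s, κn n (L.q n s) = κ s)
  {C : Type*} [Finite C] (K : Components S R C)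

include hκ hκn in
/-- Level raising in patched form. `M' = S^{m'}` (lower level), `M = S^m` (upper level),
`ι : M' × M' → M` the degeneracy map, `ι'` its adjoint. -/
theorem raise_component {m m' : Type*} [Fintype m] [DecidableEq m] [Fintype m'] [DecidableEq m']
    (ρ : ∀ n, R →+* Matrix m m (B n)) (ρ' : ∀ n, R →+* Matrix m' m' (B n))
    (hS : ∀ n s, ∃ r, ρ n r = L.q n s • (1 : Matrix m m (B n)))
    (hS' : ∀ n s, ∃ r, ρ' n r = L.q n s • (1 : Matrix m' m' (B n)))
    (hcov : ∀ P : Ideal R, P.IsPrime → RingHom.ker (L.rho ρ) ≤ P → ∃ c, K.q c ≤ P)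
    (ι : ∀ n, Matrix m (m' ⊕ m') (B n)) (ι' : ∀ n, Matrix (m' ⊕ m') m (B n))
    (hι : ∀ n r, ι n * Matrix.fromBlocks (ρ' n r) 0 0 (ρ' n r) = ρ n r * ι n)
    (hι' : ∀ n r, ι' n * ρ n r = Matrix.fromBlocks (ρ' n r) 0 0 (ρ' n r) * ι' n)
    (hinj : ∀ n, Function.Injective ((ι n).map (κn n)).mulVec)
    (hsurj : ∀ n, Function.Surjective ((ι' n).map (κn n)).mulVec)
    (a b c d : R) (hcomp : ∀ n, ι' n * ι n =
      Matrix.fromBlocks (ρ' n a) (ρ' n b) (ρ' n c) (ρ' n d))
    (P : Ideal R) (hP : P.IsPrime) (hdet : a * d - b * c ∈ P)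
    (hsupp : RingHom.ker (L.rho ρ') ≤ P)
    (r₀ : R) (hr₀ : ∀ n, ∃ Y : Matrix (m' ⊕ m') m (B n), ρ n r₀ = ι n * Y)
    (c₀ : C) (hc₀ : ∀ c, K.q c ≤ P → r₀ ∈ K.q c → c = c₀) :
    RingHom.ker (L.rho ρ) ≤ K.q c₀ := by
  classical
  set f := L.rho ρ with hf
  set f' := L.rho ρ' with hf'
  set I := L.mat ι with hI
  set I' := L.mat ι' with hI'
  have hblock : ∀ r, (L.mat fun n => Matrix.fromBlocks (ρ' n r) 0 0 (ρ' n r)) =
      Matrix.fromBlocks (f' r) 0 0 (f' r) := by
    intro r
    ext i j
    rcases i with i | i <;> rcases j with j | j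
    · rfl
    · exact map_zero L.psi
    · exact map_zero L.psi
    · rfl
  have hIf : ∀ r, I * Matrix.fromBlocks (f' r) 0 0 (f' r) = f r * I := by
    intro r
    rw [← hblock, hI, ← L.mat_mul, hf, L.rho_apply, ← L.mat_mul]
    simp only [hι]
  have hIf' : ∀ r, I' * f r = Matrix.fromBlocks (f' r) 0 0 (f' r) * I' := by
    intro r
    rw [← hblock, hI', ← L.mat_mul, hf, L.rho_apply, ← L.mat_mul]
    simp only [hι']
  have hII : I' * I = Matrix.fromBlocks (f' a) (f' b) (f' c) (f' d) := by
    rw [hI, hI', ← L.mat_mul]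
    simp only [hcomp]
    ext i j
    rcases i with i | i <;> rcases j with j | j <;> rfl
  have hleft : ∃ N : Matrix (m' ⊕ m') m S, N * I = 1 := by
    refine exists_left_inverse_lift κ hκ I ?_
    obtain ⟨n, hn⟩ := (eventually_map_eq L κ hκ κn hκn ι).exists
    rw [hI, hn]
    exact hinj n
  have hright : ∃ N : Matrix m (m' ⊕ m') S, I' * N = 1 := by
    refine exists_right_inverse_lift κ hκ I' ?_
    obtain ⟨n, hn⟩ := (eventually_map_eq L κ hκ κn hκn ι').exists
    rw [hI', hn]
    exact hsurj n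
  obtain ⟨Λ, hΛ⟩ := hleft
  obtain ⟨Λ', hΛ'⟩ := hright
  -- the cokernel
  let Q := (m → S) ⧸ LinearMap.range (Matrix.toLin' I)
  have hstab : ∀ r, LinearMap.range (Matrix.toLin' I) ≤
      (LinearMap.range (Matrix.toLin' I)).comap (toEnd f r) := by
    rintro r _ ⟨w, rfl⟩
    rw [Submodule.mem_comap]
    refine ⟨(Matrix.fromBlocks (f' r) 0 0 (f' r)).mulVec w, ?_⟩
    rw [Matrix.toLin'_apply, Matrix.toLin'_apply, toEnd_apply, Matrix.mulVec_mulVec,
      Matrix.mulVec_mulVec, hIf]
  let fQ : R →+* Module.End S Q :=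
    { toFun := fun r => Submodule.mapQ _ _ (toEnd f r) (hstab r)
      map_one' := by
        refine LinearMap.ext fun x => ?_
        obtain ⟨x, rfl⟩ := Submodule.mkQ_surjective _ x
        simp
      map_zero' := by
        refine LinearMap.ext fun x => ?_
        obtain ⟨x, rfl⟩ := Submodule.mkQ_surjective _ x
        simp
      map_add' := fun r s => by
        refine LinearMap.ext fun x => ?_
        obtain ⟨x, rfl⟩ := Submodule.mkQ_surjective _ x
        simp
      map_mul' := fun r s => by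
        refine LinearMap.ext fun x => ?_
        obtain ⟨x, rfl⟩ := Submodule.mkQ_surjective _ x
        simp }
  have hfQ : ∀ r x, fQ r (Submodule.Quotient.mk x) = Submodule.Quotient.mk (toEnd f r x) :=
    fun r x => rfl
  have htf : ∀ (s : S) (x : Q), s • x = 0 → s = 0 ∨ x = 0 := by
    intro s x hx
    obtain ⟨x, rfl⟩ := Submodule.mkQ_surjective _ x
    by_cases hs : s = 0
    · exact Or.inl hs
    · right
      have hx' : (Submodule.Quotient.mk (s • x) : Q) = 0 := hx
      rw [Submodule.Quotient.mk_eq_zero] at hx'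
      obtain ⟨w, hw⟩ := hx'
      rw [Matrix.toLin'_apply] at hw
      have h1 : Λ.mulVec (s • x) = w := by
        rw [← hw, Matrix.mulVec_mulVec, hΛ, Matrix.one_mulVec]
      rw [Matrix.mulVec_smul] at h1
      have h2 : s • (x - I.mulVec (Λ.mulVec x)) = 0 := by
        rw [smul_sub, ← Matrix.mulVec_smul, h1, hw, sub_self]
      rcases smul_eq_zero_pi s _ h2 with h3 | h3
      · exact absurd h3 hs
      · show (Submodule.Quotient.mk x : Q) = 0
        rw [Submodule.Quotient.mk_eq_zero]
        exact ⟨Λ.mulVec x, by rw [Matrix.toLin'_apply]; exact (sub_eq_zero.1 h3).symm⟩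
  have hkerQ : RingHom.ker f ≤ RingHom.ker fQ := by
    intro r hr
    rw [RingHom.mem_ker] at hr ⊢
    refine LinearMap.ext fun x => ?_
    obtain ⟨x, rfl⟩ := Submodule.mkQ_surjective _ x
    show fQ r (Submodule.Quotient.mk x) = 0
    rw [hfQ, toEnd_apply, hr, Matrix.zero_mulVec]
    rfl
  have hr₀Q : r₀ ∈ RingHom.ker fQ := by
    rw [RingHom.mem_ker]
    refine LinearMap.ext fun x => ?_
    obtain ⟨x, rfl⟩ := Submodule.mkQ_surjective _ x
    show fQ r₀ (Submodule.Quotient.mk x) = 0
    rw [hfQ, toEnd_apply, Submodule.Quotient.mk_eq_zero]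
    choose Y hY using hr₀
    refine ⟨(L.mat Y).mulVec x, ?_⟩
    rw [Matrix.toLin'_apply, Matrix.mulVec_mulVec, hI, ← L.mat_mul, hf, L.rho_apply]
    simp only [hY]
  by_cases hQP : RingHom.ker fQ ≤ P
  · obtain ⟨c₁, hc1, hc2⟩ := exists_component_le (M := Q) K.q K.prime K.δ K.dim_le K.le_dim
      htf fQ
      (fun s => by
        obtain ⟨r, hr⟩ := hS_toEnd L ρ hS s
        refine ⟨r, ?_⟩
        refine LinearMap.ext fun x => ?_
        obtain ⟨x, rfl⟩ := Submodule.mkQ_surjective _ x
        show fQ r (Submodule.Quotient.mk x) = _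
        rw [hfQ, hr, Module.algebraMap_end_apply, Module.algebraMap_end_apply]
        rfl)
      (fun P hP hfP => hcov P hP (hkerQ.trans hfP)) P hP hQP
    have h1 : c₁ = c₀ := hc₀ c₁ hc2 (hc1 hr₀Q)
    rw [← h1]
    exact hkerQ.trans hc1
  · exfalso
    obtain ⟨s, hs1, hs2⟩ : ∃ s, s ∈ RingHom.ker fQ ∧ s ∉ P := by
      by_contra hcon
      push Not at hcon
      exact hQP hcon
    let _ : Module R (m → S) := Module.compHom (m → S) (toEnd f)
    let _ : Module R (m' → S) := Module.compHom (m' → S) (toEnd f')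
    have hsm : ∀ (r : R) (x : m → S), r • x = (f r).mulVec x := fun r x => rfl
    have hsm' : ∀ (r : R) (x : m' → S), r • x = (f' r).mulVec x := fun r x => rfl
    have hfin : Module.Finite R (m' → S) := by
      refine ⟨⟨Finset.univ.image fun i : m' => Pi.single i (1 : S), ?_⟩⟩
      rw [eq_top_iff]
      intro x _
      have hx : x = ∑ i, Pi.single i (x i) := by
        funext j
        rw [Finset.sum_apply]
        simp [Pi.single_apply]
      rw [hx]
      refine Submodule.sum_mem _ fun i _ => ?_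
      obtain ⟨r, hr⟩ := exists_scalar L ρ' hS' (x i)
      have : (Pi.single i (x i) : m' → S) = r • (Pi.single i (1 : S) : m' → S) := by
        rw [hsm', hf', hr, Matrix.smul_mulVec, Matrix.one_mulVec, ← Pi.single_smul, smul_eq_mul,
          mul_one]
      rw [this]
      refine Submodule.smul_mem _ _ (Submodule.subset_span ?_)
      rw [Finset.coe_image]
      exact ⟨i, by simp, rfl⟩
    let J : ((m' → S) × (m' → S)) →ₗ[R] (m → S) :=
      { toFun := fun v => I.mulVec (Sum.elim v.1 v.2)
        map_add' := fun v w => by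
          rw [← Matrix.mulVec_add]
          congr 1
          funext i
          rcases i with i | i <;> rfl
        map_smul' := fun r v => by
          rw [RingHom.id_apply, hsm, Matrix.mulVec_mulVec, ← hIf, ← Matrix.mulVec_mulVec,
            Matrix.fromBlocks_mulVec]
          congr 1
          funext i
          rcases i with i | i
          · simp [hsm']
          · simp [hsm'] }
    let J' : (m → S) →ₗ[R] ((m' → S) × (m' → S)) :=
      { toFun := fun v => (fun i => I'.mulVec v (Sum.inl i), fun i => I'.mulVec v (Sum.inr i))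
        map_add' := fun v w => by
          rw [Matrix.mulVec_add]
          rfl
        map_smul' := fun r v => by
          have h1 : I'.mulVec (r • v) =
              (Matrix.fromBlocks (f' r) 0 0 (f' r)).mulVec (I'.mulVec v) := by
            rw [hsm, Matrix.mulVec_mulVec, hIf', ← Matrix.mulVec_mulVec]
          rw [h1, Matrix.fromBlocks_mulVec, RingHom.id_apply]
          ext i
          · simp [hsm', Function.comp_def]
          · simp [hsm', Function.comp_def] }
    refine raise_core (R := R) (M := m → S) (M' := m' → S) J J' ?_ a b c d ?_ P hdet ?_ s hs2 ?_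
    · -- surjectivity
      intro w
      refine ⟨Λ'.mulVec (Sum.elim w.1 w.2), ?_⟩
      have h1 : I'.mulVec (Λ'.mulVec (Sum.elim w.1 w.2)) = Sum.elim w.1 w.2 := by
        rw [Matrix.mulVec_mulVec, hΛ', Matrix.one_mulVec]
      show ((fun i => I'.mulVec (Λ'.mulVec (Sum.elim w.1 w.2)) (Sum.inl i),
        fun i => I'.mulVec (Λ'.mulVec (Sum.elim w.1 w.2)) (Sum.inr i)) :
          (m' → S) × (m' → S)) = w
      rw [h1]
      rfl
    · intro v
      show ((fun i => I'.mulVec (I.mulVec (Sum.elim v.1 v.2)) (Sum.inl i),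
        fun i => I'.mulVec (I.mulVec (Sum.elim v.1 v.2)) (Sum.inr i)) :
          (m' → S) × (m' → S)) = _
      rw [Matrix.mulVec_mulVec, hII, Matrix.fromBlocks_mulVec]
      ext i
      · simp [hsm', Function.comp_def]
      · simp [hsm', Function.comp_def]
    · intro r hr
      apply hsupp
      have h1 : r ∈ RingHom.ker (toEnd f') := by
        rw [RingHom.mem_ker]
        exact LinearMap.ext fun v => hr v
      rwa [ker_toEnd] at h1
    · intro x
      have h1 : fQ s (Submodule.Quotient.mk x) = 0 := by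
        rw [RingHom.mem_ker.1 hs1]; rfl
      rw [hfQ, Submodule.Quotient.mk_eq_zero] at h1
      obtain ⟨w, hw⟩ := h1
      refine ⟨(fun i => w (Sum.inl i), fun i => w (Sum.inr i)), ?_⟩
      show I.mulVec (Sum.elim (fun i => w (Sum.inl i)) (fun i => w (Sum.inr i))) = (f s).mulVec x
      rw [Matrix.toLin'_apply, toEnd_apply] at hw
      rw [← hw]
      congr 1
      funext i
      rcases i with i | i <;> rfl

end Raise

section Lower

variable {k : Type*} [Field k] (κ : S →+* k) (hκ : Function.Surjective κ)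
  (κn : ∀ n, B n →+* k) (hκn : ∀ n s, κn n (L.q n s) = κ s)
  {C : Type*} [Finite C] (K : Components S R C)

include hκ hκn in
/-- Level lowering in patched form (patched Mazur principle). `N` is (a matrix of) the
monodromy operator, `X` is `F - 1` or `F^2 - 1`. -/
theorem lower_component {m : Type*} [Fintype m] [DecidableEq m] 
    (ρ : ∀ n, R →+* Matrix m m (B n))
    (hS : ∀ n s, ∃ r, ρ n r = L.q n s • (1 : Matrix m m (B n)))
    (hcov : ∀ P : Ideal R, P.IsPrime → RingHom.ker (L.rho ρ) ≤ P → ∃ c, K.q c ≤ P)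
    (N X : Matrix (Fin 2) (Fin 2) R) (w : R)
    (hN2 : ∀ n i j, ρ n ((N * N) i j) = 0)
    (h1 : ∀ n i j, ρ n ((X * N - w • N) i j) = 0) (h2 : ∀ n i j, ρ n ((N * X) i j) = 0)
    (htr : ∀ n, ρ n (X 0 0 + X 1 1 - w) = 0)
    (hdet : ∀ n, ρ n (X 0 0 * X 1 1 - X 0 1 * X 1 0) = 0)
    (hexact : ∀ n, ∀ v : m ⊕ m → k,
      ((Matrix.fromBlocks (ρ n (N 0 0)) (ρ n (N 0 1)) (ρ n (N 1 0)) (ρ n (N 1 1))).map
        (κn n)).mulVec v = 0 →
      ∃ u, ((Matrix.fromBlocks (ρ n (N 0 0)) (ρ n (N 0 1)) (ρ n (N 1 0)) (ρ n (N 1 1))).map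
        (κn n)).mulVec u = v)
    (P : Ideal R) (hP : P.IsPrime) (hNP : ∀ i j, N i j ∈ P) (hw : w ∉ P)
    (hsupp : RingHom.ker (L.rho ρ) ≤ P)
    (hN : ∀ c, K.q c ≤ P → ∃ i j, N i j ∉ K.q c) : False := by
  classical
  set f := L.rho ρ with hf
  have hzero : ∀ r, (∀ n, ρ n r = 0) → f r = 0 := by
    intro r hr
    rw [hf, L.rho_apply]
    simp only [hr]
    ext i j
    exact map_zero L.psi
  let Nh : Matrix (m ⊕ m) (m ⊕ m) S :=
    Matrix.fromBlocks (f (N 0 0)) (f (N 0 1)) (f (N 1 0)) (f (N 1 1))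
  have hNh : Nh = L.mat fun n =>
      Matrix.fromBlocks (ρ n (N 0 0)) (ρ n (N 0 1)) (ρ n (N 1 0)) (ρ n (N 1 1)) := by
    ext i j
    rcases i with i | i <;> rcases j with j | j <;> rfl
  have hNN : Nh * Nh = 0 := by
    have e : ∀ i j, f ((N * N) i j) = 0 := fun i j => hzero _ fun n => hN2 n i j
    have e00 := e 0 0
    have e01 := e 0 1
    have e10 := e 1 0
    have e11 := e 1 1
    simp only [Matrix.mul_apply, Fin.sum_univ_two, map_add, map_mul] at e00 e01 e10 e11
    rw [Matrix.fromBlocks_multiply, e00, e01, e10, e11, Matrix.fromBlocks_zero]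
  have hex := exact_lift κ hκ Nh hNN (by
    obtain ⟨n, hn⟩ := (eventually_map_eq L κ hκ κn hκn fun n =>
      Matrix.fromBlocks (ρ n (N 0 0)) (ρ n (N 0 1)) (ρ n (N 1 0)) (ρ n (N 1 1))).exists
    rw [hNh, hn]
    exact hexact n)
  obtain ⟨s, U, i₀, j₀, hs, hU⟩ := exists_factor (RingHom.ker f) P hsupp X N w hw
    (fun i j => hzero _ fun n => h1 n i j) (fun i j => hzero _ fun n => h2 n i j)
    (hzero _ htr) (hzero _ hdet)
  let _ : Module R (m → S) := Module.compHom (m → S) (toEnd f)
  have hsm : ∀ (r : R) (x : m → S), r • x = (f r).mulVec x := fun r x => rfl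
  have hfin : Module.Finite R (m → S) := by
    refine ⟨⟨Finset.univ.image fun i : m => Pi.single i (1 : S), ?_⟩⟩
    rw [eq_top_iff]
    intro x _
    have hx : x = ∑ i, Pi.single i (x i) := by
      funext j
      rw [Finset.sum_apply]
      simp [Pi.single_apply]
    rw [hx]
    refine Submodule.sum_mem _ fun i _ => ?_
    obtain ⟨r, hr⟩ := exists_scalar L ρ hS (x i)
    have : (Pi.single i (x i) : m → S) = r • (Pi.single i (1 : S) : m → S) := by
      rw [hsm, hf, hr, Matrix.smul_mulVec, Matrix.one_mulVec, ← Pi.single_smul, smul_eq_mul,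
        mul_one]
    rw [this]
    refine Submodule.smul_mem _ _ (Submodule.subset_span ?_)
    rw [Finset.coe_image]
    exact ⟨i, by simp, rfl⟩
  have hact : ∀ v : (m → S) × (m → S), Nh.mulVec (Sum.elim v.1 v.2) =
      Sum.elim (act2 N v).1 (act2 N v).2 := by
    intro v
    show (Matrix.fromBlocks (f (N 0 0)) (f (N 0 1)) (f (N 1 0)) (f (N 1 1))).mulVec _ = _
    rw [Matrix.fromBlocks_mulVec]
    rfl
  have hkill : ∀ (r : R) (x : m → S), f r = 0 → r • x = 0 := by
    intro r x hr
    rw [hsm, hr, Matrix.zero_mulVec]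
  refine lower_core (R := R) (M := m → S) N U P (fun r hr => ?_) (fun v => ?_) (fun v hv => ?_)
    (N i₀ j₀) s (hNP i₀ j₀) hs (fun v => ?_) (fun x hx => ?_)
  · apply hsupp
    have h3 : r ∈ RingHom.ker (toEnd f) := by
      rw [RingHom.mem_ker]
      exact LinearMap.ext fun v => hr v
    rwa [ker_toEnd] at h3
  · rw [← act2_mul]
    have e : ∀ i j (x : m → S), (N * N) i j • x = 0 := fun i j x =>
      hkill _ _ (hzero _ fun n => hN2 n i j)
    rw [act2_apply]
    simp only [e, add_zero]
    rfl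
  · obtain ⟨u, hu⟩ := hex (Sum.elim v.1 v.2) (by
      rw [hact, hv]
      funext i
      rcases i with i | i <;> rfl)
    refine ⟨(fun i => u (Sum.inl i), fun i => u (Sum.inr i)), ?_⟩
    have h3 := hact (fun i => u (Sum.inl i), fun i => u (Sum.inr i))
    have h4 : Sum.elim (fun i => u (Sum.inl i)) (fun i => u (Sum.inr i)) = u := by
      funext i
      rcases i with i | i <;> rfl
    rw [show Sum.elim ((fun i => u (Sum.inl i), fun i => u (Sum.inr i)) :
      (m → S) × (m → S)).1 ((fun i => u (Sum.inl i), fun i => u (Sum.inr i)) :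
      (m → S) × (m → S)).2 = u from h4, hu] at h3
    ext i
    · exact (congrFun h3 (Sum.inl i)).symm
    · exact (congrFun h3 (Sum.inr i)).symm
  · have e : ∀ i j (x : m → S), (s * N i j) • x = (N i₀ j₀ * U i j) • x := by
      intro i j x
      rw [← sub_eq_zero, ← sub_smul]
      exact hkill _ _ (hU i j)
    have e' : ∀ i j (x : m → S), s • (N i j) • x = N i₀ j₀ • (U i j) • x := by
      intro i j x
      rw [← mul_smul, ← mul_smul]
      exact e i j x
    rw [act2_apply, act2_apply]
    refine Prod.ext ?_ ?_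
    · rw [Prod.smul_fst, Prod.smul_fst, smul_add, smul_add, e', e']
    · rw [Prod.smul_snd, Prod.smul_snd, smul_add, smul_add, e', e']
  · by_contra hcon
    push Not at hcon
    obtain ⟨c, hc1, hc2⟩ := mem_component_of_smul_eq_zero (M := m → S) K.q K.prime K.δ K.dim_le
      K.le_dim smul_eq_zero_pi (toEnd f) (hS_toEnd L ρ hS)
      (fun P hP hf => hcov P hP (by rwa [ker_toEnd] at hf)) P hP x
      (fun r hr => by
        by_contra hr'
        exact hcon r hr' hr)
    obtain ⟨i, j, hij⟩ := hN c hc1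
    apply hij
    have hc := K.prime c
    have h3 : N i₀ j₀ ∈ K.q c := hc2 _ hx
    have h4 : s * N i j - N i₀ j₀ * U i j ∈ K.q c := hc2 _ (by
      have : f (s * N i j - N i₀ j₀ * U i j) = 0 := hU i j
      rw [toEnd_apply, this, Matrix.zero_mulVec])
    have h5 : s * N i j ∈ K.q c := by
      have := Ideal.add_mem _ h4 (Ideal.mul_mem_right (U i j) _ h3)
      simpa using this
    exact (hc.mem_or_mem h5).resolve_left fun h => hs (hc1 h)

end Lower

end Fermat.Agent.RT1
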