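import Fermat.Agent.RT1.ULim

/-!
# Patching: the limit homomorphisms (RT1)
-/

set_option autoImplicit false
set_option linter.unusedSectionVars false
set_option linter.unusedVariables false

namespace Fermat.Agent.RT1

open Filter IsLocalRing

/-! ### nilpotency bounds -/

theorem nil_bound (A : Type*) [CommRing A] [IsLocalRing A] [Finite A] :
    maximalIdeal A ^ (Nat.card A) = ⊥ := by
  have key : ∀ i : ℕ, maximalIdeal A ^ i = ⊥ ∨
      Nat.card (maximalIdeal A ^ i : Ideal A) + i ≤ Nat.card A := by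
    intro i
    induction i with
    | zero =>
      right
      rw [add_zero]
      exact Nat.card_le_card_of_injective (Subtype.val : (maximalIdeal A ^ 0 : Ideal A) → A)
        Subtype.val_injective
    | succ i ih =>
      rcases ih with h | h
      · left
        rw [pow_succ, h, Ideal.bot_mul]
      · by_cases h0 : maximalIdeal A ^ (i + 1) = ⊥
        · exact Or.inl h0
        · right
          have hlt : maximalIdeal A ^ (i + 1) < maximalIdeal A ^ i := by
            refine lt_of_le_of_ne (Ideal.pow_le_pow_right (Nat.le_succ i)) fun heq => h0 ?_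
            have h1 : maximalIdeal A ^ i = ⊥ := by
              refine Submodule.eq_bot_of_le_smul_of_le_jacobson_bot (maximalIdeal A)
                (maximalIdeal A ^ i) (IsNoetherian.noetherian _) ?_
                (IsLocalRing.maximalIdeal_le_jacobson _)
              rw [smul_eq_mul, ← pow_succ', heq]
            rw [heq, h1]
          have hcard : Nat.card (maximalIdeal A ^ (i + 1) : Ideal A) <
              Nat.card (maximalIdeal A ^ i : Ideal A) := by
            have h2 : ((maximalIdeal A ^ (i + 1) : Ideal A) : Set A) ⊂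
                ((maximalIdeal A ^ i : Ideal A) : Set A) := hlt
            exact Set.ncard_lt_ncard h2 (Set.toFinite _)
          omega
  rcases key (Nat.card A) with h | h
  · exact h
  · have : 0 < Nat.card (maximalIdeal A ^ Nat.card A : Ideal A) := Nat.card_pos
    omega

theorem map_eq_zero_of_mem_pow {R : Type*} [CommRing R] [IsLocalRing R] {B : Type*} [Ring B]
    [Finite B] (f : R →+* B) {C : ℕ} (hC : Nat.card B ≤ C) {r : R}
    (hr : r ∈ maximalIdeal R ^ C) : f r = 0 := by
  classical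
  by_cases htop : RingHom.ker f = ⊤
  · have h1 : (r : R) ∈ RingHom.ker f := by rw [htop]; trivial
    exact h1
  have : Nontrivial (R ⧸ RingHom.ker f) := Ideal.Quotient.nontrivial_iff.mpr htop
  have := IsLocalRing.of_surjective' (Ideal.Quotient.mk (RingHom.ker f))
    Ideal.Quotient.mk_surjective
  have hinj : Function.Injective (RingHom.kerLift f) := RingHom.kerLift_injective f
  have : Finite (R ⧸ RingHom.ker f) := Finite.of_injective _ hinj
  have hcard : Nat.card (R ⧸ RingHom.ker f) ≤ Nat.card B :=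
    Nat.card_le_card_of_injective _ hinj
  have hmap : (maximalIdeal R).map (Ideal.Quotient.mk (RingHom.ker f)) ≤
      maximalIdeal (R ⧸ RingHom.ker f) := by
    rw [Ideal.map_le_iff_le_comap]
    intro y hy
    rw [Ideal.mem_comap, mem_maximalIdeal, mem_nonunits_iff]
    intro hu
    have hloc : IsLocalHom (Ideal.Quotient.mk (RingHom.ker f)) :=
      IsLocalHom.of_surjective _ Ideal.Quotient.mk_surjective
    exact (mem_maximalIdeal y).1 hy (isUnit_of_map_unit _ y hu)
  have h2 := Ideal.mem_map_of_mem (Ideal.Quotient.mk (RingHom.ker f)) hr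
  rw [Ideal.map_pow] at h2
  have h3 := Ideal.pow_right_mono hmap C h2
  have h4 : maximalIdeal (R ⧸ RingHom.ker f) ^ C = ⊥ := by
    rw [eq_bot_iff, ← nil_bound (R ⧸ RingHom.ker f)]
    exact Ideal.pow_le_pow_right (hcard.trans hC)
  rw [h4, Ideal.mem_bot, Ideal.Quotient.eq_zero_iff_mem] at h3
  exact h3

/-! ### the map `psi` -/

section Psi

variable {S : Type*} [CommRing S] [IsLocalRing S] [IsNoetherianRing S]
  [IsAdicComplete (maximalIdeal S) S] [Finite (ResidueField S)]
  {B : ℕ → Type*} [∀ n, CommRing (B n)]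

/-- The finite levels: surjections `q n : S → B n` with kernels tending to zero. -/
structure Levels (S : Type*) [CommRing S] [IsLocalRing S] (B : ℕ → Type*)
    [∀ n, CommRing (B n)] where
  q : ∀ n, S →+* B n
  surj : ∀ n, Function.Surjective (q n)
  ker_le : ∀ k : ℕ, ∀ᶠ n in atTop, RingHom.ker (q n) ≤ maximalIdeal S ^ k

variable (L : Levels S B)

/-- a lift of a sequence -/
noncomputable def Levels.lift (a : ∀ n, B n) (n : ℕ) : S := (L.surj n (a n)).choose

theorem Levels.q_lift (a : ∀ n, B n) (n : ℕ) : L.q n (L.lift a n) = a n :=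
  (L.surj n (a n)).choose_spec

noncomputable def Levels.psiFun (a : ∀ n, B n) : S := ulim (L.lift a)

theorem Levels.psiFun_spec (a : ∀ n, B n) (k : ℕ) :
    ∀ᶠ n in (UF : Filter ℕ), ∀ s, L.q n s = a n → s - L.psiFun a ∈ maximalIdeal S ^ k := by
  filter_upwards [ulim_spec (L.lift a) k, eventually_UF_of_atTop (L.ker_le k)] with n h1 h2 s hs
  have h3 : s - L.lift a n ∈ maximalIdeal S ^ k := by
    apply h2
    rw [RingHom.mem_ker, map_sub, hs, L.q_lift, sub_self]
  have : s - L.psiFun a = (s - L.lift a n) + (L.lift a n - ulim (L.lift a)) := by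
    rw [Levels.psiFun]; ring
  rw [this]
  exact Ideal.add_mem _ h3 h1

theorem Levels.psiFun_eq {a : ∀ n, B n} {x : S}
    (h : ∀ k, ∀ᶠ n in (UF : Filter ℕ), ∃ s, L.q n s = a n ∧ s - x ∈ maximalIdeal S ^ k) :
    L.psiFun a = x := by
  refine eq_of_sub_mem_pow (maximalIdeal S) fun k => ?_
  obtain ⟨n, hn1, s, hs1, hs2⟩ := ((L.psiFun_spec a k).and (h k)).exists
  have h1 := hn1 s hs1
  have : L.psiFun a - x = (s - x) - (s - L.psiFun a) := by ring
  rw [this]
  exact Ideal.sub_mem _ hs2 h1

/-- The patching homomorphism `∏ B n → S`. -/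
noncomputable def Levels.psi : (∀ n, B n) →+* S where
  toFun := L.psiFun
  map_one' := L.psiFun_eq fun k => Eventually.of_forall fun n => ⟨1, by simp, by simp⟩
  map_zero' := L.psiFun_eq fun k => Eventually.of_forall fun n => ⟨0, by simp, by simp⟩
  map_add' a b := by
    refine L.psiFun_eq fun k => ?_
    filter_upwards [L.psiFun_spec a k, L.psiFun_spec b k] with n h1 h2
    refine ⟨L.lift a n + L.lift b n, by rw [map_add, L.q_lift, L.q_lift]; rfl, ?_⟩
    have : L.lift a n + L.lift b n - (L.psiFun a + L.psiFun b) =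
      (L.lift a n - L.psiFun a) + (L.lift b n - L.psiFun b) := by ring
    rw [this]
    exact Ideal.add_mem _ (h1 _ (L.q_lift a n)) (h2 _ (L.q_lift b n))
  map_mul' a b := by
    refine L.psiFun_eq fun k => ?_
    filter_upwards [L.psiFun_spec a k, L.psiFun_spec b k] with n h1 h2
    refine ⟨L.lift a n * L.lift b n, by rw [map_mul, L.q_lift, L.q_lift]; rfl, ?_⟩
    have : L.lift a n * L.lift b n - (L.psiFun a * L.psiFun b) =
      (L.lift a n - L.psiFun a) * L.lift b n + L.psiFun a * (L.lift b n - L.psiFun b) := by ring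
    rw [this]
    exact Ideal.add_mem _ (Ideal.mul_mem_right _ _ (h1 _ (L.q_lift a n)))
      (Ideal.mul_mem_left _ _ (h2 _ (L.q_lift b n)))

theorem Levels.psi_spec (a : ∀ n, B n) (k : ℕ) :
    ∀ᶠ n in (UF : Filter ℕ), ∀ s, L.q n s = a n → s - L.psi a ∈ maximalIdeal S ^ k :=
  L.psiFun_spec a k

theorem Levels.psi_eq {a : ∀ n, B n} {x : S}
    (h : ∀ k, ∀ᶠ n in (UF : Filter ℕ), ∃ s, L.q n s = a n ∧ s - x ∈ maximalIdeal S ^ k) :
    L.psi a = x := L.psiFun_eq h

theorem Levels.psi_const (s : S) : L.psi (fun n => L.q n s) = s :=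
  L.psi_eq fun _ => Eventually.of_forall fun _ => ⟨s, rfl, by simp⟩

theorem Levels.psi_congr {a b : ∀ n, B n}
    (h : ∀ k, ∀ᶠ n in (UF : Filter ℕ), ∀ s t, L.q n s = a n → L.q n t = b n →
      s - t ∈ maximalIdeal S ^ k) : L.psi a = L.psi b := by
  refine L.psi_eq fun k => ?_
  filter_upwards [h k, L.psi_spec b k] with n h1 h2
  refine ⟨L.lift a n, L.q_lift a n, ?_⟩
  have : L.lift a n - L.psi b = (L.lift a n - L.lift b n) + (L.lift b n - L.psi b) := by ring
  rw [this]
  exact Ideal.add_mem _ (h1 _ _ (L.q_lift a n) (L.q_lift b n)) (h2 _ (L.q_lift b n))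

/-- the patched matrix -/
noncomputable def Levels.mat {m m' : Type*} (M : ∀ n, Matrix m m' (B n)) : Matrix m m' S :=
  Matrix.of fun i j => L.psi fun n => M n i j

theorem Levels.mat_apply {m m' : Type*} (M : ∀ n, Matrix m m' (B n)) (i : m) (j : m') :
    L.mat M i j = L.psi fun n => M n i j := rfl

theorem Levels.mat_mul {m m' m'' : Type*} [Fintype m'] (M : ∀ n, Matrix m m' (B n))
    (N : ∀ n, Matrix m' m'' (B n)) : L.mat (fun n => M n * N n) = L.mat M * L.mat N := by
  ext i j
  rw [Levels.mat_apply, Matrix.mul_apply]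
  simp only [Levels.mat_apply]
  have : (fun n => (M n * N n) i j) =
      ∑ k, (fun n => M n i k) * (fun n => N n k j) := by
    funext n
    rw [Matrix.mul_apply, Finset.sum_apply]
    rfl
  rw [this, map_sum]
  exact Finset.sum_congr rfl fun k _ => map_mul _ _ _

theorem Levels.mat_add {m m' : Type*} (M N : ∀ n, Matrix m m' (B n)) :
    L.mat (fun n => M n + N n) = L.mat M + L.mat N := by
  ext i j
  exact map_add L.psi (fun n => M n i j) (fun n => N n i j)

theorem Levels.mat_smul {m m' : Type*} (c : S) (M : ∀ n, Matrix m m' (B n)) :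
    L.mat (fun n => L.q n c • M n) = c • L.mat M := by
  ext i j
  rw [Matrix.smul_apply, smul_eq_mul, Levels.mat_apply, Levels.mat_apply]
  conv_rhs => rw [← L.psi_const c, ← map_mul]
  rfl

theorem Levels.mat_map {m m' : Type*} (M : Matrix m m' S) :
    L.mat (fun n => M.map (L.q n)) = M := by
  ext i j
  exact L.psi_const (M i j)

theorem Levels.mat_one {m : Type*} [DecidableEq m] :
    L.mat (fun n => (1 : Matrix m m (B n))) = 1 := by
  have := L.mat_map (1 : Matrix m m S)
  simpa using this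

theorem Levels.mat_smul_one {m : Type*} [DecidableEq m] (c : S) :
    L.mat (fun n => L.q n c • (1 : Matrix m m (B n))) = c • 1 := by
  rw [L.mat_smul, L.mat_one]

section Rho

variable {R : Type*} [CommRing R]
  {m : Type*} [Fintype m] [DecidableEq m] (ρ : ∀ n, R →+* Matrix m m (B n))

/-- the patched representation of `R`. -/
noncomputable def Levels.rho : R →+* Matrix m m S where
  toFun r := L.mat fun n => ρ n r
  map_one' := by simpa using L.mat_one
  map_zero' := by
    ext i j
    rw [Levels.mat_apply]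
    simp only [map_zero, Matrix.zero_apply]
    exact map_zero L.psi
  map_add' r s := by
    simp only [map_add]
    exact L.mat_add _ _
  map_mul' r s := by
    simp only [map_mul]
    exact L.mat_mul _ _

theorem Levels.rho_apply (r : R) : L.rho ρ r = L.mat fun n => ρ n r := rfl

theorem exists_level_pow [IsLocalRing R] (L : Levels S B) (ρ : ∀ n, R →+* Matrix m m (B n))
    (k : ℕ) : ∃ C : ℕ, ∀ᶠ n in atTop, ∀ r ∈ maximalIdeal R ^ C, ∀ i j, ∀ s,
      L.q n s = ρ n r i j → s ∈ maximalIdeal S ^ k := by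
  have hfin : Finite (S ⧸ maximalIdeal S ^ k) := finite_quotient_maximalIdeal_pow S k
  have hfin2 : Finite (Matrix m m (S ⧸ maximalIdeal S ^ k)) :=
    inferInstanceAs (Finite (m → m → _))
  refine ⟨Nat.card (Matrix m m (S ⧸ maximalIdeal S ^ k)), ?_⟩
  filter_upwards [L.ker_le k] with n hn r hr i j s hs
  have hn' : RingHom.ker (L.q n) ≤ RingHom.ker (Ideal.Quotient.mk (maximalIdeal S ^ k)) := by
    rwa [Ideal.mk_ker]
  set g : B n →+* S ⧸ maximalIdeal S ^ k :=
    (L.q n).liftOfSurjective (L.surj n) ⟨Ideal.Quotient.mk (maximalIdeal S ^ k), hn'⟩ with hg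
  have hgq : ∀ t, g (L.q n t) = Ideal.Quotient.mk (maximalIdeal S ^ k) t := fun t => by
    rw [hg]
    exact RingHom.liftOfRightInverse_comp_apply _ _ _ _ _
  have h1 := map_eq_zero_of_mem_pow (g.mapMatrix.comp (ρ n)) le_rfl hr
  have h2 : g (ρ n r i j) = 0 := congrFun (congrFun h1 i) j
  rw [← hs, hgq, Ideal.Quotient.eq_zero_iff_mem] at h2
  exact h2

theorem Levels.rho_ulim [IsLocalRing R] [IsNoetherianRing R] [IsAdicComplete (maximalIdeal R) R]
    [Finite (ResidueField R)] (r : ℕ → R) :
    L.rho ρ (ulim r) = L.mat fun n => ρ n (r n) := by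
  ext i j
  rw [L.rho_apply, L.mat_apply, L.mat_apply]
  refine L.psi_congr fun k => ?_
  obtain ⟨C, hC⟩ := exists_level_pow L ρ k
  filter_upwards [eventually_UF_of_atTop hC, ulim_spec r C] with n h1 h2 s t hs ht
  have h3 : L.q n (t - s) = ρ n (r n - ulim r) i j := by
    rw [map_sub, map_sub, hs, ht, Matrix.sub_apply]
  have h4 := h1 _ h2 i j _ h3
  have : s - t = -(t - s) := by ring
  rw [this]
  exact (Ideal.neg_mem_iff _).2 h4

end Rho

end Psi

/-! ### the limit of homomorphisms to a complete local ring -/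

section Pi

variable {R : Type*} [CommRing R] {R₀ : Type*} [CommRing R₀] [IsLocalRing R₀] [IsNoetherianRing R₀]
  [IsAdicComplete (maximalIdeal R₀) R₀] [Finite (ResidueField R₀)]

/-- the ultralimit of ring homomorphisms. -/
noncomputable def piInf (π : ℕ → R →+* R₀) : R →+* R₀ := ulimHom.comp (RingHom.pi π)

theorem piInf_apply (π : ℕ → R →+* R₀) (r : R) : piInf π r = ulim fun n => π n r := rfl

variable [IsLocalRing R] 

theorem exists_pow_map {R : Type*} [CommRing R] [IsLocalRing R] {R₀ : Type*} [CommRing R₀]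
    [IsLocalRing R₀] [IsNoetherianRing R₀] [Finite (ResidueField R₀)] (k : ℕ) :
    ∃ C : ℕ, ∀ (f : R →+* R₀), ∀ r ∈ maximalIdeal R ^ C, f r ∈ maximalIdeal R₀ ^ k := by
  have hfin : Finite (R₀ ⧸ maximalIdeal R₀ ^ k) := finite_quotient_maximalIdeal_pow R₀ k
  refine ⟨Nat.card (R₀ ⧸ maximalIdeal R₀ ^ k), fun f r hr => ?_⟩
  have h1 := map_eq_zero_of_mem_pow ((Ideal.Quotient.mk (maximalIdeal R₀ ^ k)).comp f) le_rfl hr
  exact Ideal.Quotient.eq_zero_iff_mem.1 h1

theorem exists_pow_map_matrix {R : Type*} [CommRing R] [IsLocalRing R] {R₀ : Type*} [CommRing R₀]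
    [IsLocalRing R₀] [IsNoetherianRing R₀] [Finite (ResidueField R₀)]
    {m : Type*} [Fintype m] [DecidableEq m] (k : ℕ) :
    ∃ C : ℕ, ∀ (f : R →+* Matrix m m R₀), ∀ r ∈ maximalIdeal R ^ C, ∀ i j,
      f r i j ∈ maximalIdeal R₀ ^ k := by
  have hfin : Finite (R₀ ⧸ maximalIdeal R₀ ^ k) := finite_quotient_maximalIdeal_pow R₀ k
  have hfin2 : Finite (Matrix m m (R₀ ⧸ maximalIdeal R₀ ^ k)) :=
    inferInstanceAs (Finite (m → m → _))
  refine ⟨Nat.card (Matrix m m (R₀ ⧸ maximalIdeal R₀ ^ k)), fun f r hr i j => ?_⟩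
  have h1 := map_eq_zero_of_mem_pow
    ((Ideal.Quotient.mk (maximalIdeal R₀ ^ k)).mapMatrix.comp f) le_rfl hr
  exact Ideal.Quotient.eq_zero_iff_mem.1 (congrFun (congrFun h1 i) j)

variable [IsNoetherianRing R] [IsAdicComplete (maximalIdeal R) R] [Finite (ResidueField R)]

theorem piInf_ulim (π : ℕ → R →+* R₀) (r : ℕ → R) :
    piInf π (ulim r) = ulim fun n => π n (r n) := by
  rw [piInf_apply]
  refine ulim_eq fun k => ?_
  obtain ⟨C, hC⟩ := exists_pow_map (R := R) (R₀ := R₀) k
  filter_upwards [ulim_spec (fun n => π n (r n)) k, ulim_spec r C] with n h1 h2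
  have h3 := hC (π n) _ h2
  have : π n (ulim r) - ulim (fun n => π n (r n)) =
      (π n (r n) - ulim (fun n => π n (r n))) - π n (r n - ulim r) := by
    rw [map_sub]; ring
  rw [this]
  exact Ideal.sub_mem _ h1 h3

theorem piInf_surjective (π : ℕ → R →+* R₀) (hπ : ∀ n, Function.Surjective (π n)) :
    Function.Surjective (piInf π) := by
  intro t
  choose r hr using fun n => hπ n t
  refine ⟨ulim r, ?_⟩
  rw [piInf_ulim]
  simp only [hr]
  exact ulim_const t

theorem piInf_mem_of_forall (π : ℕ → R →+* R₀) (J : Ideal R₀) {r : R}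
    (h : ∀ n, π n r ∈ J) : piInf π r ∈ J :=
  ulim_mem J (Eventually.of_forall h)

end Pi

/-! ### compatibility with the base level -/

section Red

variable {S : Type*} [CommRing S] [IsLocalRing S] [IsNoetherianRing S]
  [IsAdicComplete (maximalIdeal S) S] [Finite (ResidueField S)]
  {B : ℕ → Type*} [∀ n, CommRing (B n)] (L : Levels S B)
  {O₀ : Type*} [CommRing O₀] [IsLocalRing O₀] [IsNoetherianRing O₀] [Finite (ResidueField O₀)]
  (ε : S →+* O₀) (εn : ∀ n, B n →+* O₀) (hε : ∀ n s, εn n (L.q n s) = ε s)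

theorem eq_of_forall_sub_mem_pow {x y : O₀} (h : ∀ k, x - y ∈ maximalIdeal O₀ ^ k) : x = y := by
  rw [← sub_eq_zero, ← Ideal.mem_bot]
  exact mem_of_forall_sup_pow O₀ ⊥ fun k => Ideal.mem_sup_right (h k)

include hε in
/-- base level matrices: if the reductions of `M n` are constant then the reduction of the patched
matrix is that constant. -/
theorem Levels.mat_map_of_const {m m' : Type*} (M : ∀ n, Matrix m m' (B n)) (M₀ : Matrix m m' O₀)
    (h : ∀ n, (M n).map (εn n) = M₀) : (L.mat M).map ε = M₀ := by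
  ext i j
  rw [Matrix.map_apply]
  refine eq_of_forall_sub_mem_pow fun k => ?_
  obtain ⟨C, hC⟩ := exists_pow_map (R := S) (R₀ := O₀) k
  obtain ⟨n, hn⟩ := (L.psi_spec (fun n => M n i j) C).exists
  have h1 := hn _ (L.q_lift (fun n => M n i j) n)
  have h2 := hC ε _ h1
  rw [map_sub, ← hε n, L.q_lift] at h2
  have h3 : εn n (M n i j) = M₀ i j := congrFun (congrFun (h n) i) j
  rw [h3] at h2
  have : ε (L.mat M i j) - M₀ i j = -(M₀ i j - ε (L.psi fun n => M n i j)) := by
    rw [L.mat_apply]; ring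
  rw [this]
  exact (Ideal.neg_mem_iff _).2 h2

variable {R : Type*} [CommRing R]
  {R₀ : Type*} [CommRing R₀] [IsLocalRing R₀] [IsNoetherianRing R₀]
  [IsAdicComplete (maximalIdeal R₀) R₀] [Finite (ResidueField R₀)]
  {m : Type*} [Fintype m] [DecidableEq m] (ρ : ∀ n, R →+* Matrix m m (B n))
  (π : ℕ → R →+* R₀) (ρ₀ : R₀ →+* Matrix m m O₀)

include hε in
theorem Levels.rho_map (h : ∀ n r, (ρ n r).map (εn n) = ρ₀ (π n r)) (r : R) :
    (L.rho ρ r).map ε = ρ₀ (piInf π r) := by
  ext i j
  rw [Matrix.map_apply]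
  refine eq_of_forall_sub_mem_pow fun k => ?_
  obtain ⟨C, hC⟩ := exists_pow_map (R := S) (R₀ := O₀) k
  obtain ⟨C', hC'⟩ := exists_pow_map_matrix (R := R₀) (R₀ := O₀) (m := m) k
  obtain ⟨n, hn, hn'⟩ := ((L.psi_spec (fun n => ρ n r i j) C).and
    (ulim_spec (fun n => π n r) C')).exists
  have h1 := hn _ (L.q_lift (fun n => ρ n r i j) n)
  have h2 := hC ε _ h1
  rw [map_sub, ← hε n, L.q_lift] at h2
  have h3 : εn n (ρ n r i j) = ρ₀ (π n r) i j := congrFun (congrFun (h n r) i) j
  rw [h3] at h2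
  have h4 := hC' ρ₀ _ hn' i j
  rw [map_sub, Matrix.sub_apply] at h4
  have : ε (L.rho ρ r i j) - ρ₀ (piInf π r) i j =
      (ρ₀ (π n r) i j - ρ₀ (ulim fun n => π n r) i j) -
        (ρ₀ (π n r) i j - ε (L.psi fun n => ρ n r i j)) := by
    rw [L.rho_apply, L.mat_apply, piInf_apply]; ring
  rw [this]
  exact Ideal.sub_mem _ h4 h2

end Red

end Fermat.Agent.RT1
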